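import Mathlib
import Fermat.Prelude.Def_CuspForm_IntegralStructure

/-!
# S23 team library: basic definitions

* `intPS`, `IsRatBdd`: integral / bounded-denominator rational power series inside `PowerSeries ℂ`.
* `niceSub`: the algebra of `1`-periodic holomorphic functions on the upper half plane that are
  bounded at `i∞`, and `qHom : niceSub →ₐ[ℂ] PowerSeries ℂ`, the (injective) q-expansion map.
* `mulN`, `uFun`: the function `τ ↦ Δ(N τ)`.
-/

set_option autoImplicit false

namespace Fermat.Agent.S23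

open UpperHalfPlane ModularForm
open scoped MatrixGroups ModularForm Manifold

/-- Power series with integer coefficients, inside `PowerSeries ℂ`. -/
noncomputable def intPS : Subring (PowerSeries ℂ) := (PowerSeries.map (Int.castRingHom ℂ)).range

/-- Power series with rational coefficients of bounded denominator. -/
def IsRatBdd (P : PowerSeries ℂ) : Prop := ∃ D : ℤ, D ≠ 0 ∧ (D : ℂ) • P ∈ intPS

theorem mem_intPS_iff {P : PowerSeries ℂ} :
    P ∈ intPS ↔ ∀ n, ∃ m : ℤ, PowerSeries.coeff n P = (m : ℂ) := by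
  constructor
  · rintro ⟨Q, rfl⟩ n
    exact ⟨PowerSeries.coeff n Q, by simp⟩
  · intro h
    choose m hm using h
    refine ⟨PowerSeries.mk m, ?_⟩
    ext n
    simp [hm n]

theorem intCast_smul_mem_intPS {P : PowerSeries ℂ} (hP : P ∈ intPS) (D : ℤ) :
    (D : ℂ) • P ∈ intPS := by
  rw [mem_intPS_iff] at hP ⊢
  intro n
  obtain ⟨m, hm⟩ := hP n
  exact ⟨D * m, by simp [hm]⟩

theorem isRatBdd_of_mem_intPS {P : PowerSeries ℂ} (hP : P ∈ intPS) : IsRatBdd P :=
  ⟨1, one_ne_zero, by simpa using hP⟩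

theorem isRatBdd_zero : IsRatBdd 0 := isRatBdd_of_mem_intPS intPS.zero_mem

theorem isRatBdd_one : IsRatBdd 1 := isRatBdd_of_mem_intPS intPS.one_mem

theorem IsRatBdd.add {P Q : PowerSeries ℂ} (hP : IsRatBdd P) (hQ : IsRatBdd Q) :
    IsRatBdd (P + Q) := by
  obtain ⟨D, hD, hP⟩ := hP
  obtain ⟨E, hE, hQ⟩ := hQ
  refine ⟨D * E, mul_ne_zero hD hE, ?_⟩
  have h1 := intCast_smul_mem_intPS hP E
  have h2 := intCast_smul_mem_intPS hQ D
  have : ((D * E : ℤ) : ℂ) • (P + Q) = (E : ℂ) • ((D : ℂ) • P) + (D : ℂ) • ((E : ℂ) • Q) := by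
    simp only [smul_add, smul_smul]
    push_cast
    ring_nf
  rw [this]
  exact intPS.add_mem h1 h2

theorem IsRatBdd.mul {P Q : PowerSeries ℂ} (hP : IsRatBdd P) (hQ : IsRatBdd Q) :
    IsRatBdd (P * Q) := by
  obtain ⟨D, hD, hP⟩ := hP
  obtain ⟨E, hE, hQ⟩ := hQ
  refine ⟨D * E, mul_ne_zero hD hE, ?_⟩
  have : ((D * E : ℤ) : ℂ) • (P * Q) = ((D : ℂ) • P) * ((E : ℂ) • Q) := by
    rw [smul_mul_smul_comm]
    push_cast
    rfl
  rw [this]
  exact intPS.mul_mem hP hQ

theorem IsRatBdd.neg {P : PowerSeries ℂ} (hP : IsRatBdd P) : IsRatBdd (-P) := by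
  obtain ⟨D, hD, hP⟩ := hP
  exact ⟨D, hD, by simpa using intPS.neg_mem hP⟩

theorem IsRatBdd.sub {P Q : PowerSeries ℂ} (hP : IsRatBdd P) (hQ : IsRatBdd Q) :
    IsRatBdd (P - Q) := by
  simpa [sub_eq_add_neg] using hP.add hQ.neg

theorem IsRatBdd.pow {P : PowerSeries ℂ} (hP : IsRatBdd P) (n : ℕ) : IsRatBdd (P ^ n) := by
  induction n with
  | zero => simpa using isRatBdd_one
  | succ n ih => simpa [pow_succ] using ih.mul hP

theorem IsRatBdd.smul_rat {P : PowerSeries ℂ} (hP : IsRatBdd P) (r : ℚ) :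
    IsRatBdd ((r : ℂ) • P) := by
  obtain ⟨D, hD, hP⟩ := hP
  refine ⟨D * r.den, mul_ne_zero hD (by exact_mod_cast r.den_ne_zero), ?_⟩
  have h1 := intCast_smul_mem_intPS hP r.num
  have : ((D * r.den : ℤ) : ℂ) • ((r : ℂ) • P) = (r.num : ℂ) • ((D : ℂ) • P) := by
    simp only [smul_smul]
    congr 1
    have hr : (r : ℂ) = (r.num : ℂ) / (r.den : ℂ) := by
      exact_mod_cast (Rat.num_div_den r).symm
    have hden : (r.den : ℂ) ≠ 0 := by exact_mod_cast r.den_ne_zero
    rw [hr]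
    push_cast
    field_simp
  rw [this]
  exact h1

theorem isRatBdd_sum {ι : Type*} (s : Finset ι) (P : ι → PowerSeries ℂ)
    (h : ∀ i ∈ s, IsRatBdd (P i)) : IsRatBdd (∑ i ∈ s, P i) := by
  classical
  induction s using Finset.induction_on with
  | empty => simpa using isRatBdd_zero
  | insert a s ha ih =>
    rw [Finset.sum_insert ha]
    exact (h a (Finset.mem_insert_self a s)).add
      (ih fun i hi => h i (Finset.mem_insert_of_mem hi))

/-- Coefficients of a bounded-denominator rational power series are rational. -/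
theorem IsRatBdd.coeff_mem_range {P : PowerSeries ℂ} (hP : IsRatBdd P) (n : ℕ) :
    PowerSeries.coeff n P ∈ Set.range ((↑) : ℚ → ℂ) := by
  obtain ⟨D, hD, hP⟩ := hP
  rw [mem_intPS_iff] at hP
  obtain ⟨m, hm⟩ := hP n
  refine ⟨(m : ℚ) / D, ?_⟩
  have hD' : (D : ℂ) ≠ 0 := by exact_mod_cast hD
  simp only [map_smul, smul_eq_mul] at hm
  push_cast
  rw [← hm]
  field_simp

/-- A ring endomorphism of `ℂ` fixes every bounded-denominator rational power series. -/
theorem IsRatBdd.map_eq {P : PowerSeries ℂ} (hP : IsRatBdd P) (σ : ℂ →+* ℂ) :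
    PowerSeries.map σ P = P := by
  ext n
  obtain ⟨r, hr⟩ := hP.coeff_mem_range n
  rw [PowerSeries.coeff_map, ← hr]
  simp

/-- The scaling map `τ ↦ N τ` on the upper half plane. -/
def mulN (N : ℕ) [NeZero N] (τ : ℍ) : ℍ :=
  ⟨(N : ℂ) * (τ : ℂ), by
    have hN : (0 : ℝ) < N := Nat.cast_pos.mpr (NeZero.pos N)
    simpa using mul_pos hN τ.im_pos⟩

@[simp] theorem coe_mulN (N : ℕ) [NeZero N] (τ : ℍ) : ((mulN N τ : ℍ) : ℂ) = (N : ℂ) * τ := rfl

/-- The function `τ ↦ Δ(N τ)`. -/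
noncomputable def uFun (N : ℕ) [NeZero N] : ℍ → ℂ := fun τ => ModularForm.discriminant (mulN N τ)

/-- The algebra of `1`-periodic holomorphic functions on `ℍ` bounded at `i∞`. -/
def niceSub : Subalgebra ℂ (ℍ → ℂ) where
  carrier := {F | Function.Periodic (F ∘ ofComplex) 1 ∧ MDiff F ∧ IsBoundedAtImInfty F}
  mul_mem' := by
    rintro F G ⟨hF1, hF2, hF3⟩ ⟨hG1, hG2, hG3⟩
    refine ⟨?_, hF2.mul hG2, hF3.mul hG3⟩
    intro z
    simp only [Function.comp_apply, Pi.mul_apply]
    have h1 := hF1 z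
    have h2 := hG1 z
    simp only [Function.comp_apply] at h1 h2
    rw [h1, h2]
  add_mem' := by
    rintro F G ⟨hF1, hF2, hF3⟩ ⟨hG1, hG2, hG3⟩
    refine ⟨?_, hF2.add hG2, hF3.add hG3⟩
    intro z
    simp only [Function.comp_apply, Pi.add_apply]
    have h1 := hF1 z
    have h2 := hG1 z
    simp only [Function.comp_apply] at h1 h2
    rw [h1, h2]
  algebraMap_mem' := by
    intro c
    refine ⟨fun z => rfl, mdifferentiable_const, ?_⟩
    exact Filter.const_boundedAtFilter _ c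

theorem mem_niceSub {F : ℍ → ℂ} :
    F ∈ niceSub ↔ Function.Periodic (F ∘ ofComplex) 1 ∧ MDiff F ∧ IsBoundedAtImInfty F :=
  Iff.rfl

theorem analyticAt_cuspFunction_of_mem_niceSub {F : ℍ → ℂ} (hF : F ∈ niceSub) :
    AnalyticAt ℂ (cuspFunction 1 F) 0 :=
  analyticAt_cuspFunction_zero one_pos hF.1 hF.2.1 hF.2.2

/-- The q-expansion map on nice functions, as an algebra homomorphism. -/
noncomputable def qHom : niceSub →ₐ[ℂ] PowerSeries ℂ where
  toFun F := qExpansion 1 (F : ℍ → ℂ)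
  map_one' := qExpansion_one 1
  map_mul' F G := qExpansion_mul (analyticAt_cuspFunction_of_mem_niceSub F.2)
    (analyticAt_cuspFunction_of_mem_niceSub G.2)
  map_zero' := qExpansion_zero 1
  map_add' F G := qExpansion_add (analyticAt_cuspFunction_of_mem_niceSub F.2)
    (analyticAt_cuspFunction_of_mem_niceSub G.2)
  commutes' c := by
    have h1 : ((algebraMap ℂ niceSub c : niceSub) : ℍ → ℂ) = c • (1 : ℍ → ℂ) := by
      ext τ
      simp [Algebra.algebraMap_eq_smul_one]
    have h2 : AnalyticAt ℂ (cuspFunction 1 (1 : ℍ → ℂ)) 0 :=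
      analyticAt_cuspFunction_of_mem_niceSub niceSub.one_mem
    show qExpansion 1 ((algebraMap ℂ niceSub c : niceSub) : ℍ → ℂ) = _
    rw [h1, qExpansion_smul h2, qExpansion_one, Algebra.algebraMap_eq_smul_one]

@[simp] theorem qHom_apply (F : niceSub) : qHom F = qExpansion 1 (F : ℍ → ℂ) := rfl

theorem qHom_injective : Function.Injective qHom := by
  rw [injective_iff_map_eq_zero]
  intro F hF
  have := (qExpansion_eq_zero_iff one_pos F.2.1 F.2.2.1 F.2.2.2).mp hF
  exact Subtype.ext this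

end Fermat.Agent.S23
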