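import Mathlib

/-!
# S23 team library: Hermite normal form for `diag(N, 1) * γ`

For `γ ∈ SL(2, ℤ)` the integer matrix `diag(N, 1) * γ` factors as `γ' * [[a, b], [0, d]]`
with `γ' ∈ SL(2, ℤ)`, `a = gcd(N, γ 1 0) > 0`, `d > 0` and `a * d = N`.
-/

set_option autoImplicit false

namespace Fermat.Agent.S23

open Matrix
open scoped MatrixGroups

theorem exists_hermite (N : ℕ) [NeZero N] (γ : SL(2, ℤ)) :
    ∃ (γ' : SL(2, ℤ)) (a b d : ℤ), 0 < a ∧ 0 < d ∧ a * d = N ∧ a = Int.gcd N (γ 1 0) ∧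
      !![(N:ℤ), 0; 0, 1] * (γ : Matrix (Fin 2) (Fin 2) ℤ) =
        (γ' : Matrix (Fin 2) (Fin 2) ℤ) * !![a, b; 0, d] := by
  have hN0 : (N : ℤ) ≠ 0 := by exact_mod_cast NeZero.ne N
  -- entries of γ
  set p : ℤ := γ 0 0 with hp
  set q : ℤ := γ 0 1 with hq
  set r : ℤ := γ 1 0 with hr
  set s : ℤ := γ 1 1 with hs
  have hdet : p * s - q * r = 1 := by
    have := γ.det_coe
    rw [Matrix.det_fin_two] at this
    simpa [hp, hq, hr, hs] using this
  -- the gcd
  set g : ℤ := (Int.gcd (N : ℤ) r : ℤ) with hg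
  have hgpos : 0 < g := by
    have : 0 < Int.gcd (N : ℤ) r := Int.gcd_pos_of_ne_zero_left _ hN0
    rw [hg]
    exact_mod_cast this
  have hgN : g ∣ (N : ℤ) := Int.gcd_dvd_left _ _
  have hgr : g ∣ r := Int.gcd_dvd_right _ _
  obtain ⟨N', hN'⟩ := hgN
  obtain ⟨r', hr'⟩ := hgr
  have hN'pos : 0 < N' := by
    have h1 : 0 < (N : ℤ) := by
      have := Nat.pos_of_ne_zero (NeZero.ne N)
      exact_mod_cast this
    rw [hN'] at h1
    by_contra hcon
    have : g * N' ≤ 0 := mul_nonpos_of_nonneg_of_nonpos hgpos.le (not_lt.mp hcon)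
    omega
  -- coprimality
  have hcop1 : IsCoprime N' r' := by
    obtain ⟨x, y, hxy⟩ : ∃ x y : ℤ, (Int.gcd (N : ℤ) r : ℤ) = (N : ℤ) * x + r * y :=
      ⟨_, _, Int.gcd_eq_gcd_ab _ _⟩
    refine ⟨x, y, ?_⟩
    have h2 : g * (x * N' + y * r') = g * 1 := by
      rw [mul_one]
      calc g * (x * N' + y * r') = (g * N') * x + (g * r') * y := by ring
        _ = (N : ℤ) * x + r * y := by rw [← hN', ← hr']
        _ = g := hxy.symm
    exact mul_left_cancel₀ hgpos.ne' h2
  have hcop2 : IsCoprime p r' := by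
    refine ⟨s, -q * g, ?_⟩
    have : s * p + -q * g * r' = p * s - q * (g * r') := by ring
    rw [this, ← hr', hdet]
  have hcop : IsCoprime (N' * p) r' := IsCoprime.mul_left hcop1 hcop2
  obtain ⟨x, y, hxy⟩ := hcop
  -- the matrix γ'
  have hdet' : Matrix.det !![N' * p, -y; r', x] = 1 := by
    rw [Matrix.det_fin_two_of]
    linarith
  refine ⟨⟨!![N' * p, -y; r', x], hdet'⟩, g, x * (N : ℤ) * q + y * s, N', hgpos, hN'pos,
    hN'.symm, rfl, ?_⟩
  have e00 : (γ : Matrix (Fin 2) (Fin 2) ℤ) 0 0 = p := rfl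
  have e01 : (γ : Matrix (Fin 2) (Fin 2) ℤ) 0 1 = q := rfl
  have e10 : (γ : Matrix (Fin 2) (Fin 2) ℤ) 1 0 = r := rfl
  have e11 : (γ : Matrix (Fin 2) (Fin 2) ℤ) 1 1 = s := rfl
  ext i j
  fin_cases i <;> fin_cases j
  · simp [Matrix.mul_apply, Fin.sum_univ_two, e00, e10]
    rw [hN']; ring
  · simp [Matrix.mul_apply, Fin.sum_univ_two, e01, e11]
    -- N * q = N' * p * (x N q + y s) - y * N'
    have h1 : (N : ℤ) * q = N' * p * (x * (N : ℤ) * q + y * s) + -y * N' := by
      have hx : x * (N' * p) = 1 - y * r' := by linarith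
      have : N' * p * (x * (N : ℤ) * q + y * s) + -y * N'
          = (x * (N' * p)) * ((N : ℤ) * q) + y * N' * (p * s - 1) := by ring
      rw [this, hx]
      have hps : p * s - 1 = q * r := by linarith
      rw [hps, hN', hr']
      ring
    linarith
  · simp [Matrix.mul_apply, Fin.sum_univ_two, e00, e10]
    rw [hr']; ring
  · simp [Matrix.mul_apply, Fin.sum_univ_two, e01, e11]
    have h1 : s = r' * (x * (N : ℤ) * q + y * s) + x * N' := by
      have hy : y * r' = 1 - x * (N' * p) := by linarith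
      have : r' * (x * (N : ℤ) * q + y * s) + x * N'
          = (y * r') * s + x * (r' * (N : ℤ) * q + N') := by ring
      rw [this, hy]
      have : r' * (N : ℤ) * q + N' = N' * (p * s) := by
        have hps : p * s = 1 + q * r := by linarith
        rw [hps, hN', hr']; ring
      rw [this]; ring
    linarith

end Fermat.Agent.S23
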