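import Mathlib
import Fermat.Agent.S23.Basic
import Fermat.Agent.S23.Hermite

/-!
# S23 team library: L2b, the stabiliser of `Δ(N τ)` in `SL(2, ℤ)` is `Γ₀(N)`

OWNER: helper20 (only the owner edits this file).

Using the Hermite decomposition `diag(N, 1) * γ = γ' * [[a, b], [0, d]]` we get
`(Δ(N·) ∣[12] γ)(τ) = d⁻¹² Δ((a τ + b) / d)`; comparing the decay at `i∞`
(`‖Δ(z)‖ ≍ exp(-2π Im z)`) forces `d = 1`, i.e. `N ∣ γ 1 0`.
-/

set_option autoImplicit false

namespace Fermat.Agent.S23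

open UpperHalfPlane ModularForm Filter Topology
open scoped MatrixGroups ModularForm Manifold Real

/-- Pointwise form of the `SL(2, ℤ)`-invariance of the discriminant. -/
theorem discriminant_smul_eq (A : SL(2, ℤ)) (z : ℍ) :
    discriminant (A • z) = discriminant z * denom A z ^ (12 : ℤ) := by
  have h := congrFun
    (SlashInvariantForm.slash_action_generators_SL2Z discriminant_S_invariant
      discriminant_T_invariant A) z
  rw [SL_slash_apply] at h
  have hne : denom A z ≠ 0 := denom_ne_zero _ _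
  rw [← h, mul_assoc, ← zpow_add₀ hne]
  simp

theorem im_affine_div (a b d : ℤ) (hd : 0 < d) (z : ℂ) :
    (((a : ℂ) * z + (b : ℂ)) / (d : ℂ)).im = (a : ℝ) * z.im / d := by
  have hdc : (d : ℂ) ≠ 0 := by exact_mod_cast hd.ne'
  have hd' : (d : ℝ) ≠ 0 := by exact_mod_cast hd.ne'
  have : ((a : ℂ) * z + (b : ℂ)) / (d : ℂ)
      = ((((a : ℝ) * z.re + b) / d : ℝ) : ℂ) + (((a : ℝ) * z.im / d : ℝ) : ℂ) * Complex.I := by
    have hz : z = (z.re : ℂ) + (z.im : ℂ) * Complex.I := (Complex.re_add_im z).symm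
    conv_lhs => rw [hz]
    push_cast
    field_simp
    ring
  rw [this]
  simp

/-- The point `(a τ + b) / d` of the upper half plane (for `a, d > 0`). -/
noncomputable def affPt (a b d : ℤ) (ha : 0 < a) (hd : 0 < d) (τ : ℍ) : ℍ :=
  ⟨((a : ℂ) * (τ : ℂ) + (b : ℂ)) / (d : ℂ), by
    have ha' : (0 : ℝ) < a := by exact_mod_cast ha
    have hd' : (0 : ℝ) < d := by exact_mod_cast hd
    rw [im_affine_div a b d hd]
    have := τ.im_pos
    exact div_pos (mul_pos ha' this) hd'⟩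

theorem coe_affPt (a b d : ℤ) (ha : 0 < a) (hd : 0 < d) (τ : ℍ) :
    ((affPt a b d ha hd τ : ℍ) : ℂ) = ((a : ℂ) * (τ : ℂ) + (b : ℂ)) / (d : ℂ) := rfl

theorem im_affPt (a b d : ℤ) (ha : 0 < a) (hd : 0 < d) (τ : ℍ) :
    (affPt a b d ha hd τ).im = (a : ℝ) * τ.im / d :=
  im_affine_div a b d hd τ

theorem im_mulN (N : ℕ) [NeZero N] (τ : ℍ) : (mulN N τ).im = (N : ℝ) * τ.im := by
  change ((N : ℂ) * (τ : ℂ)).im = _
  simp

/-- The key computation: `Δ(N·) ∣[12] γ` in terms of the Hermite decomposition. -/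
theorem uFun_slash_apply_of_hermite (N : ℕ) [NeZero N] (γ γ' : SL(2, ℤ)) (a b d : ℤ)
    (ha : 0 < a) (hd : 0 < d)
    (hmat : !![(N:ℤ), 0; 0, 1] * (γ : Matrix (Fin 2) (Fin 2) ℤ) =
        (γ' : Matrix (Fin 2) (Fin 2) ℤ) * !![a, b; 0, d]) (τ : ℍ) :
    (uFun N ∣[(12 : ℤ)] γ) τ = ((d : ℂ) ^ (12 : ℕ))⁻¹ * discriminant (affPt a b d ha hd τ) := by
  -- the four entry equations
  have e00 : (N : ℤ) * γ 0 0 = γ' 0 0 * a := by
    have := congrFun (congrFun hmat 0) 0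
    simpa [Matrix.mul_apply, Fin.sum_univ_two] using this
  have e01 : (N : ℤ) * γ 0 1 = γ' 0 0 * b + γ' 0 1 * d := by
    have := congrFun (congrFun hmat 0) 1
    simpa [Matrix.mul_apply, Fin.sum_univ_two] using this
  have e10 : γ 1 0 = γ' 1 0 * a := by
    have := congrFun (congrFun hmat 1) 0
    simpa [Matrix.mul_apply, Fin.sum_univ_two] using this
  have e11 : γ 1 1 = γ' 1 0 * b + γ' 1 1 * d := by
    have := congrFun (congrFun hmat 1) 1
    simpa [Matrix.mul_apply, Fin.sum_univ_two] using this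
  have c00 : (N : ℂ) * (γ 0 0 : ℂ) = (γ' 0 0 : ℂ) * a := by exact_mod_cast e00
  have c01 : (N : ℂ) * (γ 0 1 : ℂ) = (γ' 0 0 : ℂ) * b + (γ' 0 1 : ℂ) * d := by exact_mod_cast e01
  have c10 : (γ 1 0 : ℂ) = (γ' 1 0 : ℂ) * a := by exact_mod_cast e10
  have c11 : (γ 1 1 : ℂ) = (γ' 1 0 : ℂ) * b + (γ' 1 1 : ℂ) * d := by exact_mod_cast e11
  have hdc : (d : ℂ) ≠ 0 := by exact_mod_cast hd.ne'
  set z₁ := affPt a b d ha hd τ with hz₁
  have hz₁c : (z₁ : ℂ) = ((a : ℂ) * (τ : ℂ) + (b : ℂ)) / (d : ℂ) := rfl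
  -- denominators
  have hden : denom γ' z₁ = denom γ τ / d := by
    rw [ModularGroup.denom_apply, ModularGroup.denom_apply, hz₁c]
    rw [c10, c11]
    field_simp
    ring
  have hden0 : denom γ τ ≠ 0 := denom_ne_zero _ _
  have hden1 : denom γ' z₁ ≠ 0 := denom_ne_zero _ _
  -- the points
  have hpt : mulN N (γ • τ) = γ' • z₁ := by
    apply UpperHalfPlane.ext
    rw [coe_mulN, UpperHalfPlane.coe_specialLinearGroup_apply,
      UpperHalfPlane.coe_specialLinearGroup_apply]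
    have hd0 : ((γ 1 0 : ℤ) : ℂ) * (τ : ℂ) + ((γ 1 1 : ℤ) : ℂ) ≠ 0 := by
      have := hden0
      rw [ModularGroup.denom_apply] at this
      exact this
    have hd1 : ((γ' 1 0 : ℤ) : ℂ) * (z₁ : ℂ) + ((γ' 1 1 : ℤ) : ℂ) ≠ 0 := by
      have := hden1
      rw [ModularGroup.denom_apply] at this
      exact this
    simp only [algebraMap_int_eq, Int.coe_castRingHom, Complex.ofReal_intCast]
    rw [mul_div_assoc', div_eq_div_iff hd0 hd1, hz₁c]
    rw [hz₁c] at hd1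
    field_simp
    linear_combination
      ((γ' 1 0 : ℂ) * (a * τ + b) + (γ' 1 1 : ℂ) * d) * ((τ : ℂ) * c00 + c01)
        - ((γ' 0 0 : ℂ) * (a * τ + b) + (γ' 0 1 : ℂ) * d) * ((τ : ℂ) * c10 + c11)
  rw [SL_slash_apply]
  show discriminant (mulN N (γ • τ)) * _ = _
  rw [hpt, discriminant_smul_eq, hden]
  rw [zpow_neg, div_zpow]
  have h12 : denom γ τ ^ (12 : ℤ) ≠ 0 := zpow_ne_zero _ hden0
  have hd12 : (d : ℂ) ^ (12 : ℤ) ≠ 0 := zpow_ne_zero _ hdc
  have : (d : ℂ) ^ (12 : ℕ) = (d : ℂ) ^ (12 : ℤ) := by norm_cast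
  rw [this]
  field_simp

theorem norm_discriminant_eq (z : ℍ) :
    ‖discriminant z‖ = Real.exp (-2 * π * z.im) * ‖∏' n, (1 - eta_q n z) ^ 24‖ := by
  rw [discriminant_eq_q_prod, norm_mul, Function.Periodic.norm_qParam]
  simp

theorem eventually_discriminant_bounds :
    ∀ᶠ z : ℍ in atImInfty, Real.exp (-2 * π * z.im) / 2 ≤ ‖discriminant z‖ ∧
      ‖discriminant z‖ ≤ 2 * Real.exp (-2 * π * z.im) := by
  have hprod := tendsto_atImInfty_tprod_one_sub_eta_q_pow.eventually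
    (Metric.ball_mem_nhds 1 (by norm_num : (0 : ℝ) < 1 / 2))
  filter_upwards [hprod] with z hz
  rw [norm_discriminant_eq]
  have hsub : ‖∏' n, (1 - eta_q n z) ^ 24 - 1‖ < 1 / 2 := by
    rwa [Complex.dist_eq] at hz
  have h1 := norm_sub_norm_le 1 (∏' n, (1 - eta_q n z) ^ 24)
  have h2 := norm_sub_norm_le (∏' n, (1 - eta_q n z) ^ 24) 1
  rw [norm_sub_rev] at h1
  rw [norm_one] at h1 h2
  have hexp := (Real.exp_pos (-2 * π * z.im)).le
  constructor
  · nlinarith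
  · nlinarith

theorem tendsto_const_mul_im_atImInfty {K : ℝ} (hK : 0 < K) :
    Tendsto (fun τ : ℍ => K * τ.im) atImInfty atTop :=
  Tendsto.const_mul_atTop hK tendsto_comap

theorem tendsto_affPt_atImInfty (a b d : ℤ) (ha : 0 < a) (hd : 0 < d) :
    Tendsto (affPt a b d ha hd) atImInfty atImInfty := by
  rw [atImInfty, tendsto_comap_iff]
  have ha' : (0 : ℝ) < a := by exact_mod_cast ha
  have hd' : (0 : ℝ) < d := by exact_mod_cast hd
  have h := tendsto_const_mul_im_atImInfty (div_pos ha' hd')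
  refine h.congr fun τ => ?_
  rw [Function.comp_apply, im_affPt]
  ring

theorem tendsto_mulN_atImInfty (N : ℕ) [NeZero N] :
    Tendsto (mulN N) atImInfty atImInfty := by
  rw [atImInfty, tendsto_comap_iff]
  have hN : (0 : ℝ) < N := Nat.cast_pos.mpr (NeZero.pos N)
  have h := tendsto_const_mul_im_atImInfty hN
  refine h.congr fun τ => ?_
  rw [Function.comp_apply, im_mulN]

/-- In the Hermite decomposition, invariance of `Δ(N·)` under `γ` forces `d = 1`. -/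
theorem eq_one_of_hermite (N : ℕ) [NeZero N] (γ γ' : SL(2, ℤ)) (a b d : ℤ)
    (ha : 0 < a) (hd : 0 < d) (had : a * d = N)
    (hmat : !![(N:ℤ), 0; 0, 1] * (γ : Matrix (Fin 2) (Fin 2) ℤ) =
        (γ' : Matrix (Fin 2) (Fin 2) ℤ) * !![a, b; 0, d])
    (h : uFun N ∣[(12 : ℤ)] γ = uFun N) : d = 1 := by
  by_contra hd1
  have hd2 : 2 ≤ d := by omega
  have ha' : (0 : ℝ) < a := by exact_mod_cast ha
  have hd' : (2 : ℝ) ≤ d := by exact_mod_cast hd2
  have hdpos : (0 : ℝ) < d := by linarith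
  have hN : (N : ℝ) = a * d := by exact_mod_cast had.symm
  have key : ∀ τ : ℍ, ((d : ℂ) ^ (12 : ℕ))⁻¹ * discriminant (affPt a b d ha hd τ)
      = discriminant (mulN N τ) := fun τ => by
    rw [← uFun_slash_apply_of_hermite N γ γ' a b d ha hd hmat τ, h]
    rfl
  have key' : ∀ τ : ℍ, ‖discriminant (affPt a b d ha hd τ)‖
      = (d : ℝ) ^ (12 : ℕ) * ‖discriminant (mulN N τ)‖ := fun τ => by
    rw [← key τ, norm_mul, norm_inv, norm_pow]
    have : ‖(d : ℂ)‖ = (d : ℝ) := by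
      rw [show (d : ℂ) = ((d : ℝ) : ℂ) by push_cast; rfl, Complex.norm_real,
        Real.norm_of_nonneg hdpos.le]
    rw [this]
    have hd12 : (d : ℝ) ^ (12 : ℕ) ≠ 0 := pow_ne_zero _ hdpos.ne'
    field_simp
  -- the growth constant
  set K : ℝ := 2 * π * ((N : ℝ) - a / d) with hK
  have hKpos : 0 < K := by
    have h1 : (a : ℝ) / d < a * d := by
      rw [div_lt_iff₀ hdpos]
      nlinarith
    have : 0 < (N : ℝ) - a / d := by rw [hN]; linarith
    positivity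
  have hev1 := (tendsto_affPt_atImInfty a b d ha hd).eventually eventually_discriminant_bounds
  have hev2 := (tendsto_mulN_atImInfty N).eventually eventually_discriminant_bounds
  have hev3 := (Real.tendsto_exp_atTop.comp (tendsto_const_mul_im_atImInfty hKpos)).eventually
    (eventually_gt_atTop (4 * (d : ℝ) ^ (12 : ℕ)))
  obtain ⟨τ, ⟨h1, -⟩, ⟨-, h2⟩, h3⟩ := (hev1.and (hev2.and hev3)).exists
  rw [im_affPt] at h1
  rw [im_mulN] at h2
  rw [key' τ] at h1
  simp only [Function.comp_apply] at h3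
  -- combine
  have hd12 : (0 : ℝ) < (d : ℝ) ^ (12 : ℕ) := pow_pos hdpos _
  have h4 : Real.exp (-2 * π * ((a : ℝ) * τ.im / d)) / 2
      ≤ (d : ℝ) ^ (12 : ℕ) * (2 * Real.exp (-2 * π * ((N : ℝ) * τ.im))) :=
    h1.trans (mul_le_mul_of_nonneg_left h2 hd12.le)
  have h5 : Real.exp (K * τ.im) = Real.exp (-2 * π * ((a : ℝ) * τ.im / d)) *
      Real.exp (2 * π * ((N : ℝ) * τ.im)) := by
    rw [← Real.exp_add]
    congr 1
    rw [hK]
    ring
  have h6 : Real.exp (-2 * π * ((N : ℝ) * τ.im)) * Real.exp (2 * π * ((N : ℝ) * τ.im)) = 1 := by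
    rw [← Real.exp_add]
    have : -2 * π * ((N : ℝ) * τ.im) + 2 * π * ((N : ℝ) * τ.im) = 0 := by ring
    rw [this, Real.exp_zero]
  have hE := (Real.exp_pos (2 * π * ((N : ℝ) * τ.im)))
  have h7 : Real.exp (K * τ.im) ≤ 4 * (d : ℝ) ^ (12 : ℕ) := by
    rw [h5]
    have := mul_le_mul_of_nonneg_right h4 hE.le
    nlinarith [this, h6]
  linarith

theorem mem_Gamma0_of_slash_uFun_eq (N : ℕ) [NeZero N] (γ : SL(2, ℤ))
    (h : (uFun N) ∣[(12 : ℤ)] (Matrix.SpecialLinearGroup.mapGL ℝ γ) = uFun N) :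
    γ ∈ CongruenceSubgroup.Gamma0 N := by
  obtain ⟨γ', a, b, d, ha, hd, had, hagcd, hmat⟩ := exists_hermite N γ
  have hd1 : d = 1 := eq_one_of_hermite N γ γ' a b d ha hd had hmat h
  rw [CongruenceSubgroup.Gamma0_mem]
  have haN : a = N := by rw [hd1, mul_one] at had; exact had
  have hdvd : (N : ℤ) ∣ γ 1 0 := by
    have h1 : ((Int.gcd N (γ 1 0) : ℕ) : ℤ) ∣ γ 1 0 := Int.gcd_dvd_right _ _
    rwa [← hagcd, haN] at h1
  exact (ZMod.intCast_zmod_eq_zero_iff_dvd _ _).mpr hdvd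

end Fermat.Agent.S23
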