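import Mathlib
import Fermat.Agent.S23.Basic
import Fermat.Prelude.Thm_UpperHalfPlane_qExpansion_coeff_nat_mul

/-!
# S23 team library: the q-expansion of `τ ↦ Δ(N τ)`

OWNER: helper16 (only the owner edits this file).
-/

set_option autoImplicit false

namespace Fermat.Agent.S23

open UpperHalfPlane ModularForm
open scoped MatrixGroups ModularForm Manifold

namespace UQ

/-- On the punctured unit disc, the cusp function (period `1`) of `Δ(N τ)` agrees with the cusp
function of `Δ` for the period `N`. -/
theorem cuspFunction_uFun_eq (N : ℕ) [NeZero N] {q : ℂ} (hq0 : q ≠ 0) (hq1 : ‖q‖ < 1) :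
    cuspFunction 1 (uFun N) q =
      cuspFunction ((N : ℝ) * 1) (ModularForm.discriminant : ℍ → ℂ) q := by
  have hN : (0 : ℝ) < N := Nat.cast_pos.mpr (NeZero.pos N)
  simp only [UpperHalfPlane.cuspFunction, Function.Periodic.cuspFunction_eq_of_nonzero _ _ hq0,
    Function.comp_apply]
  have him : 0 < (Function.Periodic.invQParam 1 q).im := by
    rw [Function.Periodic.im_invQParam]
    have hlog : Real.log ‖q‖ < 0 := Real.log_neg (norm_pos_iff.mpr hq0) hq1
    have : (-1 : ℝ) / (2 * Real.pi) < 0 := by
      apply div_neg_of_neg_of_pos (by norm_num) (by positivity)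
    nlinarith [mul_pos_of_neg_of_neg this hlog]
  have hinv : Function.Periodic.invQParam ((N : ℝ) * 1) q =
      (N : ℂ) * Function.Periodic.invQParam 1 q := by
    simp only [Function.Periodic.invQParam]
    push_cast
    ring
  have him' : 0 < (Function.Periodic.invQParam ((N : ℝ) * 1) q).im := by
    rw [hinv, Complex.mul_im]
    simp only [Complex.natCast_re, Complex.natCast_im, zero_mul, add_zero]
    exact mul_pos hN him
  rw [uFun]
  congr 1
  apply UpperHalfPlane.ext
  rw [coe_mulN, ofComplex_apply_of_im_pos him, ofComplex_apply_of_im_pos him']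
  exact hinv.symm

theorem cuspFunction_uFun_eventuallyEq (N : ℕ) [NeZero N] :
    cuspFunction 1 (uFun N) =ᶠ[nhds 0]
      cuspFunction ((N : ℝ) * 1) (ModularForm.discriminant : ℍ → ℂ) := by
  have hball : Metric.ball (0 : ℂ) 1 ∈ nhds (0 : ℂ) := Metric.ball_mem_nhds 0 one_pos
  have hne : ∀ᶠ q in nhdsWithin (0 : ℂ) {0}ᶜ, cuspFunction 1 (uFun N) q =
      cuspFunction ((N : ℝ) * 1) (ModularForm.discriminant : ℍ → ℂ) q := by
    filter_upwards [self_mem_nhdsWithin, nhdsWithin_le_nhds hball] with q hq hq1
    exact cuspFunction_uFun_eq N hq (by simpa using hq1)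
  have h0 : cuspFunction 1 (uFun N) 0 =
      cuspFunction ((N : ℝ) * 1) (ModularForm.discriminant : ℍ → ℂ) 0 := by
    simp only [UpperHalfPlane.cuspFunction]
    rw [Function.Periodic.cuspFunction_zero_eq_limUnder_nhds_ne,
      Function.Periodic.cuspFunction_zero_eq_limUnder_nhds_ne]
    exact congrArg Filter.lim (Filter.map_congr hne)
  filter_upwards [hball] with q hq
  by_cases hq0 : q = 0
  · rw [hq0]; exact h0
  · exact cuspFunction_uFun_eq N hq0 (by simpa using hq)

theorem qExpansion_uFun_eq (N : ℕ) [NeZero N] :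
    qExpansion 1 (uFun N) = qExpansion ((N : ℝ) * 1) (ModularForm.discriminant : ℍ → ℂ) := by
  ext n
  rw [qExpansion_coeff, qExpansion_coeff, (cuspFunction_uFun_eventuallyEq N).iteratedDeriv_eq n]

end UQ

theorem qExpansion_uFun_coeff (N : ℕ) [NeZero N] (n : ℕ) :
    PowerSeries.coeff n (qExpansion 1 (uFun N)) =
      if N ∣ n then PowerSeries.coeff (n / N)
        (qExpansion 1 (ModularForm.discriminant : ℍ → ℂ)) else 0 := by
  rw [UQ.qExpansion_uFun_eq]
  have hper : Function.Periodic ((ModularForm.discriminant : ℍ → ℂ) ∘ ofComplex) (1 : ℝ) := by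
    have := SlashInvariantFormClass.periodic_comp_ofComplex CuspForm.discriminant
      one_mem_strictPeriods_SL
    simpa using this
  exact UpperHalfPlane.qExpansion_coeff_nat_mul one_pos hper
    CuspForm.discriminant.holo'
    (ModularFormClass.bdd_at_infty CuspForm.discriminant) (NeZero.pos N) n

theorem isRatBdd_qExpansion_uFun (N : ℕ) [NeZero N]
    (hΔ : IsRatBdd (qExpansion 1 (ModularForm.discriminant : ℍ → ℂ))) :
    IsRatBdd (qExpansion 1 (uFun N)) := by
  obtain ⟨D, hD, hP⟩ := hΔ
  refine ⟨D, hD, ?_⟩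
  rw [mem_intPS_iff] at hP ⊢
  intro n
  rw [map_smul, qExpansion_uFun_coeff]
  split_ifs with h
  · simpa using hP (n / N)
  · exact ⟨0, by simp⟩

end Fermat.Agent.S23
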