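import Mathlib
import Fermat.Agent.S23.Basic
import Fermat.Agent.S23.UFunQExp
import Fermat.Prelude.Def_ModularForm_HeckeOperator

/-!
# S23 team library: L2a, the weight 12 form `Δ(N τ)` on `Γ₀(N)` and its q-expansion

OWNER: helper76 (only the owner edits this file).
-/

set_option autoImplicit false

namespace Fermat.Agent.S23

open UpperHalfPlane ModularForm
open scoped MatrixGroups ModularForm Manifold

/-- Restriction of a modular form to a smaller subgroup. -/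
def restrictLE {Γ Γ' : Subgroup (GL (Fin 2) ℝ)} {k : ℤ} (h : Γ' ≤ Γ) (f : ModularForm Γ k) :
    ModularForm Γ' k where
  toFun := f
  slash_action_eq' A hA := f.slash_action_eq' A (h hA)
  holo' := f.holo'
  bdd_at_cusps' hc := f.bdd_at_cusps' (hc.mono h)

@[simp] theorem coe_restrictLE {Γ Γ' : Subgroup (GL (Fin 2) ℝ)} {k : ℤ} (h : Γ' ≤ Γ)
    (f : ModularForm Γ k) : (restrictLE h f : ℍ → ℂ) = f := rfl

/-- For `γ ∈ Γ₀(N)`, the conjugate `diag(N,1) γ diag(N,1)⁻¹` is integral. -/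
theorem exists_conj_heckeDiagMatrix (N : ℕ) [NeZero N] (γ : SL(2, ℤ))
    (hγ : γ ∈ CongruenceSubgroup.Gamma0 N) :
    ∃ γ' : SL(2, ℤ), heckeDiagMatrix N * Matrix.SpecialLinearGroup.mapGL ℝ γ =
      Matrix.SpecialLinearGroup.mapGL ℝ γ' * heckeDiagMatrix N := by
  have hN : N ≠ 0 := NeZero.ne N
  rw [CongruenceSubgroup.Gamma0_mem] at hγ
  have hdvd : (N : ℤ) ∣ γ 1 0 := (ZMod.intCast_zmod_eq_zero_iff_dvd _ _).mp hγ
  obtain ⟨c, hc⟩ := hdvd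
  have hdet := γ.det_coe
  rw [Matrix.det_fin_two] at hdet
  have hdet' : (!![γ 0 0, N * γ 0 1; c, γ 1 1] : Matrix (Fin 2) (Fin 2) ℤ).det = 1 := by
    rw [Matrix.det_fin_two_of]
    rw [hc] at hdet
    linarith
  obtain ⟨γ', h00, h01, h10, h11⟩ : ∃ γ' : SL(2, ℤ), γ' 0 0 = γ 0 0 ∧ γ' 0 1 = N * γ 0 1 ∧
      γ' 1 0 = c ∧ γ' 1 1 = γ 1 1 :=
    ⟨⟨!![γ 0 0, N * γ 0 1; c, γ 1 1], hdet'⟩, rfl, rfl, rfl, rfl⟩
  refine ⟨γ', ?_⟩
  apply Matrix.GeneralLinearGroup.ext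
  intro i j
  have hc' : ((γ 1 0 : ℤ) : ℝ) = (N : ℝ) * (c : ℝ) := by exact_mod_cast hc
  simp only [Matrix.GeneralLinearGroup.coe_mul, val_heckeDiagMatrix hN,
    Matrix.SpecialLinearGroup.mapGL_coe_matrix]
  fin_cases i <;> fin_cases j <;>
    simp [Matrix.mul_apply, Fin.sum_univ_two, hc', h00, h01, h10, h11, mul_comm]

open ConjAct Pointwise in
theorem Gamma0_le_conj (N : ℕ) [NeZero N] :
    ((CongruenceSubgroup.Gamma0 N : Subgroup SL(2, ℤ)) : Subgroup (GL (Fin 2) ℝ)) ≤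
      toConjAct (heckeDiagMatrix N)⁻¹ • 𝒮ℒ := by
  rintro _ ⟨γ, hγ, rfl⟩
  rw [map_inv, Subgroup.mem_inv_pointwise_smul_iff, toConjAct_smul]
  obtain ⟨γ', hγ'⟩ := exists_conj_heckeDiagMatrix N γ hγ
  refine ⟨γ', ?_⟩
  rw [hγ']
  simp

open ConjAct Pointwise in
/-- `τ ↦ N ^ 11 * Δ(N τ)` as a modular form of weight 12 on `Γ₀(N)`. -/
noncomputable def uNAux (N : ℕ) [NeZero N] : ModularForm (CongruenceSubgroup.Gamma0 N) 12 :=
  restrictLE (Gamma0_le_conj N) (ModularForm.translate CuspForm.discriminant (heckeDiagMatrix N))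

theorem heckeDiagMatrix_smul_eq_mulN (N : ℕ) [NeZero N] (τ : ℍ) :
    heckeDiagMatrix N • τ = mulN N τ := by
  apply UpperHalfPlane.ext
  rw [coe_heckeDiagMatrix_smul (NeZero.ne N), coe_mulN]

theorem coe_uNAux (N : ℕ) [NeZero N] (τ : ℍ) :
    uNAux N τ = (N : ℂ) ^ (11 : ℤ) * uFun N τ := by
  show (⇑CuspForm.discriminant ∣[(12 : ℤ)] heckeDiagMatrix N) τ = _
  rw [slash_heckeDiagMatrix_apply 12 (NeZero.ne N), heckeDiagMatrix_smul_eq_mulN]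
  rfl

/-- `τ ↦ Δ(N τ)` as a modular form of weight 12 on `Γ₀(N)`. -/
noncomputable def uN (N : ℕ) [NeZero N] : ModularForm (CongruenceSubgroup.Gamma0 N) 12 :=
  (((N : ℂ) ^ (11 : ℤ))⁻¹ : ℂ) • uNAux N

theorem coe_uN (N : ℕ) [NeZero N] : (uN N : ℍ → ℂ) = uFun N := by
  ext τ
  have hN : ((N : ℂ) ^ (11 : ℤ)) ≠ 0 := zpow_ne_zero _ (Nat.cast_ne_zero.mpr (NeZero.ne N))
  show ((((N : ℂ) ^ (11 : ℤ))⁻¹ : ℂ) • uNAux N) τ = uFun N τ
  rw [smul_apply, coe_uNAux, smul_eq_mul, inv_mul_cancel_left₀ hN]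

theorem isRatBdd_qExpansion_uN (N : ℕ) [NeZero N]
    (hΔ : IsRatBdd (qExpansion 1 (ModularForm.discriminant : ℍ → ℂ))) :
    IsRatBdd (qExpansion 1 (uN N)) := by
  rw [coe_uN]
  exact isRatBdd_qExpansion_uFun N hΔ

end Fermat.Agent.S23
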