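import Mathlib
import Fermat.Agent.S23.Basic

/-!
# S23 team, block L7: bounded denominators

Owner: helper84.  Main result: `Fermat.Agent.S23.isRatBdd_of_relations`.
-/

set_option autoImplicit false

namespace Fermat.Agent.S23

open PowerSeries

namespace BddDenom

/-- power series with rational coefficients. -/
noncomputable def ratPS : Subring (PowerSeries ℂ) := (PowerSeries.map (algebraMap ℚ ℂ)).range

theorem mem_ratPS_iff {P : PowerSeries ℂ} :
    P ∈ ratPS ↔ ∀ n, ∃ r : ℚ, coeff n P = (r : ℂ) := by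
  constructor
  · rintro ⟨Q, rfl⟩ n
    exact ⟨coeff n Q, by simp⟩
  · intro h
    choose m hm using h
    refine ⟨PowerSeries.mk m, ?_⟩
    ext n
    simp [hm]

theorem intPS_le_ratPS : intPS ≤ ratPS := by
  intro P hP
  rw [mem_ratPS_iff]
  intro n
  obtain ⟨m, hm⟩ := mem_intPS_iff.mp hP n
  exact ⟨m, by simp [hm]⟩

theorem int_smul_eq (D : ℤ) (P : PowerSeries ℂ) :
    (D : ℂ) • P = (D : PowerSeries ℂ) * P := by
  ext n
  rw [coeff_smul, smul_eq_mul, ← map_intCast (PowerSeries.C (R := ℂ)) D, coeff_C_mul]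

theorem rat_smul_eq (r : ℚ) (P : PowerSeries ℂ) :
    (r : ℂ) • P = PowerSeries.C (r : ℂ) * P := by
  ext n
  rw [coeff_smul, smul_eq_mul, coeff_C_mul]

theorem C_rat_mem_ratPS (r : ℚ) : PowerSeries.C (r : ℂ) ∈ ratPS := by
  rw [mem_ratPS_iff]
  intro n
  rw [coeff_C]
  split_ifs
  · exact ⟨r, rfl⟩
  · exact ⟨0, by simp⟩

theorem IsRatBdd.mem_ratPS {P : PowerSeries ℂ} (h : IsRatBdd P) : P ∈ ratPS := by
  obtain ⟨D, hD0, hD⟩ := h
  rw [mem_ratPS_iff]
  intro n
  obtain ⟨m, hm⟩ := mem_intPS_iff.mp hD n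
  rw [coeff_smul, smul_eq_mul] at hm
  refine ⟨(m : ℚ) / (D : ℚ), ?_⟩
  have hD0' : (D : ℂ) ≠ 0 := by exact_mod_cast hD0
  push_cast
  field_simp
  linear_combination hm

theorem smul_mem_intPS_of_dvd {D D' : ℤ} (h : D ∣ D') {P : PowerSeries ℂ}
    (hP : (D : ℂ) • P ∈ intPS) : (D' : ℂ) • P ∈ intPS := by
  obtain ⟨k, rfl⟩ := h
  rw [int_smul_eq] at hP ⊢
  have : ((D * k : ℤ) : PowerSeries ℂ) * P = (k : PowerSeries ℂ) * ((D : PowerSeries ℂ) * P) := by
    push_cast; ring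
  rw [this]
  exact mul_mem (intCast_mem _ _) hP

theorem exists_common_denominator {ι : Type*} [Fintype ι] (P : ι → PowerSeries ℂ)
    (h : ∀ i, IsRatBdd (P i)) : ∃ D : ℤ, D ≠ 0 ∧ ∀ i, (D : ℂ) • P i ∈ intPS := by
  classical
  choose D hD0 hD using h
  refine ⟨∏ i, D i, Finset.prod_ne_zero_iff.mpr fun i _ => hD0 i, fun i => ?_⟩
  exact smul_mem_intPS_of_dvd (Finset.dvd_prod_of_mem D (Finset.mem_univ i)) (hD i)

/-! ### The `ℚ`-linear retraction applied coefficientwise -/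

theorem exists_lam : ∃ lam : ℂ →ₗ[ℚ] ℚ, ∀ r : ℚ, lam (r : ℂ) = r := by
  obtain ⟨g, hg⟩ := LinearMap.exists_leftInverse_of_injective (Algebra.linearMap ℚ ℂ)
    (LinearMap.ker_eq_bot.mpr (algebraMap ℚ ℂ).injective)
  refine ⟨g, fun r => ?_⟩
  have := congrArg (fun f => f r) hg
  simpa using this

/-- coefficientwise application of a `ℚ`-linear functional `ℂ → ℚ`. -/
noncomputable def lamPS (lam : ℂ →ₗ[ℚ] ℚ) : PowerSeries ℂ →+ PowerSeries ℂ where
  toFun P := PowerSeries.mk fun n => ((lam (coeff n P) : ℚ) : ℂ)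
  map_zero' := by ext n; simp
  map_add' P Q := by ext n; simp

@[simp] theorem coeff_lamPS (lam : ℂ →ₗ[ℚ] ℚ) (P : PowerSeries ℂ) (n : ℕ) :
    coeff n (lamPS lam P) = ((lam (coeff n P) : ℚ) : ℂ) := by
  simp [lamPS]

theorem lam_rat_mul (lam : ℂ →ₗ[ℚ] ℚ) (r : ℚ) (x : ℂ) : lam ((r : ℂ) * x) = r * lam x := by
  have : (r : ℂ) * x = r • x := by rw [Rat.smul_def]
  rw [this, map_smul, smul_eq_mul]

theorem lamPS_rat_mul (lam : ℂ →ₗ[ℚ] ℚ) {P : PowerSeries ℂ} (hP : P ∈ ratPS)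
    (X : PowerSeries ℂ) : lamPS lam (P * X) = P * lamPS lam X := by
  ext n
  simp only [coeff_lamPS, coeff_mul, map_sum, Rat.cast_sum]
  refine Finset.sum_congr rfl fun ij _ => ?_
  obtain ⟨r, hr⟩ := mem_ratPS_iff.mp hP ij.1
  rw [hr, lam_rat_mul, Rat.cast_mul]

theorem lamPS_mul_rat (lam : ℂ →ₗ[ℚ] ℚ) {P : PowerSeries ℂ} (hP : P ∈ ratPS)
    (X : PowerSeries ℂ) : lamPS lam (X * P) = lamPS lam X * P := by
  rw [mul_comm, lamPS_rat_mul lam hP, mul_comm]

theorem lamPS_smul_rat (lam : ℂ →ₗ[ℚ] ℚ) (c : ℂ) {M : PowerSeries ℂ} (hM : M ∈ ratPS) :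
    lamPS lam (c • M) = ((lam c : ℚ) : ℂ) • M := by
  ext n
  simp only [coeff_lamPS, coeff_smul, smul_eq_mul]
  obtain ⟨r, hr⟩ := mem_ratPS_iff.mp hM n
  rw [hr, mul_comm c, lam_rat_mul, Rat.cast_mul, mul_comm]

theorem lamPS_of_mem_ratPS (lam : ℂ →ₗ[ℚ] ℚ) (hlam : ∀ r : ℚ, lam (r : ℂ) = r)
    {M : PowerSeries ℂ} (hM : M ∈ ratPS) : lamPS lam M = M := by
  ext n
  obtain ⟨r, hr⟩ := mem_ratPS_iff.mp hM n
  rw [coeff_lamPS, hr, hlam]

theorem isRatBdd_lamPS_of_mem_span (lam : ℂ →ₗ[ℚ] ℚ) {X : PowerSeries ℂ}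
    (hX : X ∈ Submodule.span ℂ {P | IsRatBdd P}) : IsRatBdd (lamPS lam X) := by
  have key : ∀ c : ℂ, IsRatBdd (lamPS lam (c • X)) := by
    induction hX using Submodule.span_induction with
    | mem x hx =>
      intro c
      rw [lamPS_smul_rat lam c (IsRatBdd.mem_ratPS hx)]
      exact IsRatBdd.smul_rat hx _
    | zero => intro c; simpa using isRatBdd_zero
    | add x y _ _ hx hy =>
      intro c
      rw [smul_add, map_add]
      exact IsRatBdd.add (hx c) (hy c)
    | smul a x _ hx =>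
      intro c
      rw [smul_smul]
      exact hx _
  simpa using key 1

/-! ### Complete integral closedness of `ℤ⟦X⟧` inside `ℚ⟦X⟧` -/

theorem rat_isInt_of_forall_mul_pow (c : ℤ) (hc : c ≠ 0) (r : ℚ)
    (h : ∀ n : ℕ, ∃ m : ℤ, (c : ℚ) * r ^ n = m) : ∃ m : ℤ, r = m := by
  by_cases hden : r.den = 1
  · exact ⟨r.num, by rw [← Rat.num_div_den r, hden]; simp⟩
  · exfalso
    have hden2 : 2 ≤ r.den := by
      have := r.den_pos
      omega
    obtain ⟨m, hm⟩ := h c.natAbs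
    have h1 : r ^ c.natAbs = (m : ℚ) / (c : ℚ) := by
      have hc' : (c : ℚ) ≠ 0 := by exact_mod_cast hc
      field_simp
      linear_combination hm
    have h2 : (((r ^ c.natAbs).den : ℕ) : ℤ) ∣ c := by
      rw [h1, ← Rat.divInt_eq_div]
      exact Rat.den_dvd m c
    rw [Rat.den_pow] at h2
    have h3 : r.den ^ c.natAbs ∣ c.natAbs := by
      have := Int.natAbs_dvd_natAbs.mpr h2
      simpa using this
    have h4 : r.den ^ c.natAbs ≤ c.natAbs :=
      Nat.le_of_dvd (Int.natAbs_pos.mpr hc) h3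
    have h5 : c.natAbs < 2 ^ c.natAbs := Nat.lt_two_pow_self
    have h6 : 2 ^ c.natAbs ≤ r.den ^ c.natAbs := Nat.pow_le_pow_left hden2 _
    omega

theorem coeff_mul_of_forall_lt (P Q : PowerSeries ℂ) (a b : ℕ)
    (hP : ∀ i < a, coeff i P = 0) (hQ : ∀ j < b, coeff j Q = 0) :
    (∀ k < a + b, coeff k (P * Q) = 0) ∧ coeff (a + b) (P * Q) = coeff a P * coeff b Q := by
  constructor
  · intro k hk
    rw [coeff_mul]
    refine Finset.sum_eq_zero fun ij hij => ?_
    rw [Finset.HasAntidiagonal.mem_antidiagonal] at hij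
    by_cases h : ij.1 < a
    · rw [hP _ h, zero_mul]
    · rw [hQ ij.2 (by omega), mul_zero]
  · rw [coeff_mul]
    rw [Finset.sum_eq_single (a, b)]
    · intro ij hij hne
      rw [Finset.HasAntidiagonal.mem_antidiagonal] at hij
      by_cases h : ij.1 < a
      · rw [hP _ h, zero_mul]
      · by_cases h' : ij.2 < b
        · rw [hQ _ h', mul_zero]
        · exfalso
          exact hne (Prod.ext (by show ij.1 = a; omega) (by show ij.2 = b; omega))
    · intro h
      exact absurd (Finset.HasAntidiagonal.mem_antidiagonal.mpr (rfl : (a, b).1 + (a, b).2 = a + b)) h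

theorem coeff_pow_of_forall_lt (G : PowerSeries ℂ) (s : ℕ) (hG : ∀ i < s, coeff i G = 0)
    (n : ℕ) : (∀ k < s * n, coeff k (G ^ n) = 0) ∧ coeff (s * n) (G ^ n) = (coeff s G) ^ n := by
  induction n with
  | zero => simp
  | succ n ih =>
    have := coeff_mul_of_forall_lt (G ^ n) G (s * n) s ih.1 hG
    rw [pow_succ, Nat.mul_succ]
    refine ⟨this.1, ?_⟩
    rw [this.2, ih.2, pow_succ]

theorem mem_intPS_of_forall_mul_pow_mem (C G : PowerSeries ℂ) (hC : C ∈ intPS) (hC0 : C ≠ 0)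
    (hG : G ∈ ratPS) (h : ∀ n, C * G ^ n ∈ intPS) : G ∈ intPS := by
  classical
  by_contra hGn
  rw [mem_intPS_iff] at hGn
  push Not at hGn
  set s := Nat.find hGn with hs_def
  have hs : ∀ m : ℤ, coeff s G ≠ m := Nat.find_spec hGn
  have hlt : ∀ i < s, ∃ m : ℤ, coeff i G = m := fun i hi => by
    have := Nat.find_min hGn hi
    push Not at this
    exact this
  set T : PowerSeries ℂ := ((trunc s G : Polynomial ℂ) : PowerSeries ℂ) with hT_def
  have hTc : ∀ i, coeff i T = if i < s then coeff i G else 0 := fun i => by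
    rw [hT_def, Polynomial.coeff_coe, coeff_trunc]
  have hT : T ∈ intPS := mem_intPS_iff.mpr fun i => by
    rw [hTc]
    split_ifs with hi
    · exact hlt i hi
    · exact ⟨0, by simp⟩
  have hG₁lt : ∀ i < s, coeff i (G - T) = 0 := fun i hi => by
    rw [map_sub, hTc, if_pos hi, sub_self]
  have hG₁s : coeff s (G - T) = coeff s G := by
    rw [map_sub, hTc, if_neg (lt_irrefl _), sub_zero]
  have hCG₁ : ∀ n, C * (G - T) ^ n ∈ intPS := by
    intro n
    rw [sub_pow, Finset.mul_sum]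
    refine Subring.sum_mem _ fun k _ => ?_
    have : C * ((-1) ^ (k + n) * G ^ k * T ^ (n - k) * (n.choose k : PowerSeries ℂ)) =
        (-1) ^ (k + n) * (C * G ^ k) * T ^ (n - k) * (n.choose k : PowerSeries ℂ) := by ring
    rw [this]
    exact mul_mem (mul_mem (mul_mem (pow_mem (neg_mem (one_mem _)) _) (h k)) (pow_mem hT _))
      (natCast_mem _ _)
  -- the order of `C`
  have hCex : ∃ n, coeff n C ≠ 0 := exists_coeff_ne_zero_iff_ne_zero.mpr hC0
  set e := Nat.find hCex with he_def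
  have he : coeff e C ≠ 0 := Nat.find_spec hCex
  have helt : ∀ i < e, coeff i C = 0 := fun i hi => by
    have := Nat.find_min hCex hi
    push Not at this
    exact this
  obtain ⟨c, hc⟩ := mem_intPS_iff.mp hC e
  have hc0 : c ≠ 0 := by
    rintro rfl
    exact he (by simpa using hc)
  obtain ⟨r, hr⟩ := mem_ratPS_iff.mp hG s
  have key : ∀ n : ℕ, ∃ m : ℤ, (c : ℚ) * r ^ n = m := by
    intro n
    have hpow := coeff_pow_of_forall_lt (G - T) s hG₁lt n
    have hmul := (coeff_mul_of_forall_lt C ((G - T) ^ n) e (s * n) helt hpow.1).2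
    rw [hpow.2, hG₁s, hc, hr] at hmul
    obtain ⟨m, hm⟩ := mem_intPS_iff.mp (hCG₁ n) (e + s * n)
    rw [hmul] at hm
    refine ⟨m, ?_⟩
    exact_mod_cast hm
  obtain ⟨m, hm⟩ := rat_isInt_of_forall_mul_pow c hc0 r key
  exact hs m (by rw [hr, hm]; simp)

theorem mem_intPS_of_integral_of_mul_mem (G Bs : PowerSeries ℂ) (hG : G ∈ ratPS)
    (hBs : Bs ∈ intPS) (hBs0 : Bs ≠ 0) (hGB : G * Bs ∈ intPS) (ν : ℕ)
    (e : Fin ν → PowerSeries ℂ) (he : ∀ m, e m ∈ intPS)
    (hrel : G ^ ν + ∑ m : Fin ν, e m * G ^ (ν - 1 - (m : ℕ)) = 0) : G ∈ intPS := by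
  have hpow : ∀ n, Bs ^ (ν - 1) * G ^ n ∈ intPS := by
    intro n
    induction n using Nat.strong_induction_on with
    | _ n ih =>
      by_cases hn : n < ν
      · have : Bs ^ (ν - 1) * G ^ n = (G * Bs) ^ n * Bs ^ (ν - 1 - n) := by
          rw [mul_pow, mul_assoc, ← pow_add, mul_comm]
          congr 2
          omega
        rw [this]
        exact mul_mem (pow_mem hGB _) (pow_mem hBs _)
      · have hGν : G ^ ν = -∑ m : Fin ν, e m * G ^ (ν - 1 - (m : ℕ)) :=
          eq_neg_of_add_eq_zero_left hrel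
        have hn' : G ^ n = G ^ (n - ν) * G ^ ν := by
          rw [← pow_add]
          congr 1
          omega
        have : Bs ^ (ν - 1) * G ^ n =
            -∑ m : Fin ν, e m * (Bs ^ (ν - 1) * G ^ (n - 1 - (m : ℕ))) := by
          rw [hn', hGν]
          rw [mul_neg, mul_neg, neg_inj, Finset.mul_sum, Finset.mul_sum]
          refine Finset.sum_congr rfl fun m _ => ?_
          have hm : n - 1 - (m : ℕ) = (n - ν) + (ν - 1 - (m : ℕ)) := by
            have := m.2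
            omega
          rw [hm, pow_add]
          ring
        rw [this]
        refine neg_mem (Subring.sum_mem _ fun m _ => mul_mem (he m) (ih _ ?_))
        have := m.2
        omega
  exact mem_intPS_of_forall_mul_pow_mem (Bs ^ (ν - 1)) G (pow_mem hBs _) (pow_ne_zero _ hBs0) hG hpow

end BddDenom

open BddDenom in
/-- **Bounded denominators** (block L7 of the S23 plan). -/
theorem isRatBdd_of_relations (F U : PowerSeries ℂ)
    (hF : ∀ n, PowerSeries.coeff n F ∈ Set.range ((↑) : ℚ → ℂ)) (hU : IsRatBdd U)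
    (μ ν : ℕ) (B : PowerSeries ℂ) (A : Fin μ → PowerSeries ℂ) (E : Fin ν → PowerSeries ℂ)
    (hB0 : B ≠ 0) (hB : B ∈ Submodule.span ℂ {P | IsRatBdd P})
    (hA : ∀ i, A i ∈ Submodule.span ℂ {P | IsRatBdd P})
    (hE : ∀ m, E m ∈ Submodule.span ℂ {P | IsRatBdd P})
    (h1 : F * B = ∑ i : Fin μ, A i * U ^ (i : ℕ))
    (h2 : F ^ ν + ∑ m : Fin ν, E m * F ^ (ν - 1 - (m : ℕ)) = 0) :
    IsRatBdd F := by
  have hFr : F ∈ ratPS := mem_ratPS_iff.mpr fun n => by
    obtain ⟨r, hr⟩ := hF n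
    exact ⟨r, hr.symm⟩
  have hUr : U ∈ ratPS := IsRatBdd.mem_ratPS hU
  obtain ⟨lam, hlam⟩ := exists_lam
  -- normalise `B` so that one coefficient is `1`
  obtain ⟨n0, hn0⟩ := exists_coeff_ne_zero_iff_ne_zero.mpr hB0
  set b := coeff n0 B with hb_def
  have h1' : F * (b⁻¹ • B) = ∑ i : Fin μ, (b⁻¹ • A i) * U ^ (i : ℕ) := by
    rw [mul_smul_comm, h1, Finset.smul_sum]
    refine Finset.sum_congr rfl fun i _ => ?_
    rw [smul_mul_assoc]
  -- apply the retraction
  set B' := lamPS lam (b⁻¹ • B) with hB'_def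
  set A' : Fin μ → PowerSeries ℂ := fun i => lamPS lam (b⁻¹ • A i) with hA'_def
  set E' : Fin ν → PowerSeries ℂ := fun m => lamPS lam (E m) with hE'_def
  have hB'r : IsRatBdd B' := isRatBdd_lamPS_of_mem_span lam (Submodule.smul_mem _ _ hB)
  have hA'r : ∀ i, IsRatBdd (A' i) := fun i =>
    isRatBdd_lamPS_of_mem_span lam (Submodule.smul_mem _ _ (hA i))
  have hE'r : ∀ m, IsRatBdd (E' m) := fun m => isRatBdd_lamPS_of_mem_span lam (hE m)
  have hB'0 : B' ≠ 0 := by
    intro h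
    have h' := congrArg (coeff n0) h
    rw [hB'_def, coeff_lamPS, coeff_smul, smul_eq_mul, ← hb_def, inv_mul_cancel₀ hn0] at h'
    have := hlam 1
    simp only [Rat.cast_one] at this
    rw [this] at h'
    simp at h'
  have h1'' : F * B' = ∑ i : Fin μ, A' i * U ^ (i : ℕ) := by
    have := congrArg (lamPS lam) h1'
    rw [lamPS_rat_mul lam hFr, map_sum] at this
    rw [this]
    refine Finset.sum_congr rfl fun i _ => ?_
    rw [lamPS_mul_rat lam (pow_mem hUr _)]
  have h2'' : F ^ ν + ∑ m : Fin ν, E' m * F ^ (ν - 1 - (m : ℕ)) = 0 := by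
    have := congrArg (lamPS lam) h2
    rw [map_add, map_zero, lamPS_of_mem_ratPS lam hlam (pow_mem hFr _), map_sum] at this
    rw [← this]
    congr 1
    refine Finset.sum_congr rfl fun m _ => ?_
    rw [lamPS_mul_rat lam (pow_mem hFr _)]
  -- common denominator
  obtain ⟨DE, hDE0, hDE⟩ := exists_common_denominator E' hE'r
  obtain ⟨DA, hDA0, hDA⟩ := exists_common_denominator A' hA'r
  obtain ⟨DB, hDB0, hDB⟩ := hB'r
  obtain ⟨DU, hDU0, hDU⟩ := hU
  set D : ℤ := DE * DA * DB * DU with hD_def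
  have hD0 : D ≠ 0 := mul_ne_zero (mul_ne_zero (mul_ne_zero hDE0 hDA0) hDB0) hDU0
  have hDE' : ∀ m, (D : PowerSeries ℂ) * E' m ∈ intPS := fun m => by
    rw [← int_smul_eq]
    exact smul_mem_intPS_of_dvd ⟨DA * DB * DU, by rw [hD_def]; ring⟩ (hDE m)
  have hDA' : ∀ i, (D : PowerSeries ℂ) * A' i ∈ intPS := fun i => by
    rw [← int_smul_eq]
    exact smul_mem_intPS_of_dvd ⟨DE * DB * DU, by rw [hD_def]; ring⟩ (hDA i)
  have hDB' : (D : PowerSeries ℂ) * B' ∈ intPS := by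
    rw [← int_smul_eq]
    exact smul_mem_intPS_of_dvd ⟨DE * DA * DU, by rw [hD_def]; ring⟩ hDB
  have hDU' : (D : PowerSeries ℂ) * U ∈ intPS := by
    rw [← int_smul_eq]
    exact smul_mem_intPS_of_dvd ⟨DE * DA * DB, by rw [hD_def]; ring⟩ hDU
  set d : PowerSeries ℂ := (D : PowerSeries ℂ) with hd_def
  have hd : d ∈ intPS := intCast_mem _ _
  have hd0 : d ≠ 0 := by
    intro h
    have h' := congrArg (PowerSeries.constantCoeff (R := ℂ)) h
    rw [hd_def, map_intCast, map_zero] at h'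
    exact hD0 (by exact_mod_cast h')
  refine ⟨D, hD0, ?_⟩
  rw [int_smul_eq]
  refine mem_intPS_of_integral_of_mul_mem (d * F) (d ^ (μ + 1) * B')
    (mul_mem (intPS_le_ratPS hd) hFr) ?_ (mul_ne_zero (pow_ne_zero _ hd0) hB'0) ?_ ν
    (fun m => d ^ ((m : ℕ) + 1) * E' m) ?_ ?_
  · rw [pow_succ, mul_assoc]
    exact mul_mem (pow_mem hd _) hDB'
  · have : d * F * (d ^ (μ + 1) * B') =
        d ^ 2 * ∑ i : Fin μ, d ^ (μ - 1 - (i : ℕ)) * ((d * A' i) * (d * U) ^ (i : ℕ)) := by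
      have h3 : d * F * (d ^ (μ + 1) * B') = d ^ 2 * (d ^ μ * (F * B')) := by ring
      rw [h3, h1'', Finset.mul_sum]
      congr 1
      refine Finset.sum_congr rfl fun i _ => ?_
      have hi : d ^ μ = d ^ (μ - 1 - (i : ℕ)) * d * d ^ (i : ℕ) := by
        rw [← pow_succ, ← pow_add]
        congr 1
        have := i.2
        omega
      rw [hi, mul_pow]
      ring
    rw [this]
    exact mul_mem (pow_mem hd _) (Subring.sum_mem _ fun i _ =>
      mul_mem (pow_mem hd _) (mul_mem (hDA' i) (pow_mem hDU' _)))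
  · intro m
    rw [pow_succ, mul_assoc]
    exact mul_mem (pow_mem hd _) (hDE' m)
  · have : (d * F) ^ ν + ∑ m : Fin ν, d ^ ((m : ℕ) + 1) * E' m * (d * F) ^ (ν - 1 - (m : ℕ)) =
        d ^ ν * (F ^ ν + ∑ m : Fin ν, E' m * F ^ (ν - 1 - (m : ℕ))) := by
      rw [mul_add, Finset.mul_sum, mul_pow]
      congr 1
      refine Finset.sum_congr rfl fun m _ => ?_
      have hm : d ^ ν = d ^ ((m : ℕ) + 1) * d ^ (ν - 1 - (m : ℕ)) := by
        rw [← pow_add]
        congr 1
        have := m.2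
        omega
      rw [hm, mul_pow]
      ring
    rw [this, h2'', mul_zero]

end Fermat.Agent.S23
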