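import Mathlib
import Fermat.Agent.S23.Basic

/-!
# S23 team library: L5, a quotient that is integral over level-one cusp forms is a cusp form

OWNER: helper23 (only the owner edits this file).
-/

set_option autoImplicit false

noncomputable section

namespace Fermat.Agent.S23.Converse

open UpperHalfPlane ModularForm Filter Topology
open scoped MatrixGroups ModularForm Manifold

/-- Zeros of a nonzero holomorphic function on the upper half plane are isolated. -/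
theorem eventually_ne_zero_of_mdiff {Q : ℍ → ℂ} (hQ : MDiff Q) (hQ0 : Q ≠ 0) (z₀ : ℂ)
    (hz₀ : 0 < z₀.im) : ∀ᶠ z in 𝓝[≠] z₀, (Q ∘ ofComplex) z ≠ 0 := by
  have hdiff : DifferentiableOn ℂ (Q ∘ ofComplex) upperHalfPlaneSet := mdifferentiable_iff.mp hQ
  have han : AnalyticOnNhd ℂ (Q ∘ ofComplex) upperHalfPlaneSet :=
    hdiff.analyticOnNhd isOpen_upperHalfPlaneSet
  rcases (han z₀ hz₀).eventually_eq_zero_or_eventually_ne_zero with h | h
  · exfalso
    apply hQ0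
    have h0 := han.eqOn_zero_of_preconnected_of_eventuallyEq_zero
      (Convex.isPreconnected (convex_halfSpace_im_gt 0)) hz₀ h
    funext τ
    have := h0 τ.2
    simpa using this
  · exact h

/-- A continuous function on the upper half plane vanishing wherever a nonzero holomorphic function
does not vanish is identically zero. -/
theorem eq_zero_of_forall_ne_zero {Q : ℍ → ℂ} (hQ : MDiff Q) (hQ0 : Q ≠ 0) {F : ℍ → ℂ}
    (hF : Continuous F) (h : ∀ τ, Q τ ≠ 0 → F τ = 0) : F = 0 := by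
  funext τ
  have h1 : ∀ᶠ z in 𝓝[≠] (τ : ℂ), (Q ∘ ofComplex) z ≠ 0 :=
    eventually_ne_zero_of_mdiff hQ hQ0 τ τ.2
  have h2 : ∀ᶠ z in 𝓝[≠] (τ : ℂ), (F ∘ ofComplex) z = 0 := h1.mono fun z hz => h _ hz
  have hc : ContinuousAt (F ∘ ofComplex) (τ : ℂ) :=
    ContinuousAt.comp hF.continuousAt (mdifferentiableAt_ofComplex τ.2).continuousAt
  have h3 : Tendsto (F ∘ ofComplex) (𝓝[≠] (τ : ℂ)) (𝓝 ((F ∘ ofComplex) τ)) :=
    hc.tendsto.mono_left nhdsWithin_le_nhds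
  have h4 : Tendsto (F ∘ ofComplex) (𝓝[≠] (τ : ℂ)) (𝓝 0) :=
    (tendsto_congr' h2).mpr tendsto_const_nhds
  have := tendsto_nhds_unique h3 h4
  simpa using this

/-- Algebra: factor the homogeneous relation. -/
theorem relation_factor (μ : ℕ) (x Q : ℂ) (a : ℕ → ℂ) :
    (x * Q) ^ (μ + 1) + ∑ m ∈ Finset.range (μ + 1), a m * (x * Q) ^ (μ - m) * Q ^ (m + 1)
      = Q ^ (μ + 1) * (x ^ (μ + 1) + ∑ m ∈ Finset.range (μ + 1), a m * x ^ (μ - m)) := by
  rw [mul_add, Finset.mul_sum, mul_pow]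
  congr 1
  · ring
  · refine Finset.sum_congr rfl fun m hm => ?_
    have hm' : m ≤ μ := Nat.lt_succ_iff.mp (Finset.mem_range.mp hm)
    have : Q ^ (μ + 1) = Q ^ (μ - m) * Q ^ (m + 1) := by
      rw [← pow_add]; congr 1; omega
    rw [this, mul_pow]; ring

/-- Root bound for a monic relation. -/
theorem norm_le_of_monic_relation {μ : ℕ} {x : ℂ} {a : ℕ → ℂ}
    (h : x ^ (μ + 1) + ∑ m ∈ Finset.range (μ + 1), a m * x ^ (μ - m) = 0) :
    ‖x‖ ≤ max 1 (∑ m ∈ Finset.range (μ + 1), ‖a m‖) := by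
  by_contra hcon
  rw [not_le] at hcon
  have h1 : 1 < ‖x‖ := lt_of_le_of_lt (le_max_left _ _) hcon
  have hS : ∑ m ∈ Finset.range (μ + 1), ‖a m‖ < ‖x‖ := lt_of_le_of_lt (le_max_right _ _) hcon
  have hx : x ^ (μ + 1) = -∑ m ∈ Finset.range (μ + 1), a m * x ^ (μ - m) :=
    eq_neg_of_add_eq_zero_left h
  have h2 : ‖x‖ ^ (μ + 1) ≤ (∑ m ∈ Finset.range (μ + 1), ‖a m‖) * ‖x‖ ^ μ := by
    calc ‖x‖ ^ (μ + 1) = ‖x ^ (μ + 1)‖ := (norm_pow _ _).symm
      _ = ‖∑ m ∈ Finset.range (μ + 1), a m * x ^ (μ - m)‖ := by rw [hx, norm_neg]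
      _ ≤ ∑ m ∈ Finset.range (μ + 1), ‖a m * x ^ (μ - m)‖ := norm_sum_le _ _
      _ ≤ ∑ m ∈ Finset.range (μ + 1), ‖a m‖ * ‖x‖ ^ μ := by
          refine Finset.sum_le_sum fun m _ => ?_
          rw [norm_mul, norm_pow]
          exact mul_le_mul_of_nonneg_left
            (pow_le_pow_right₀ h1.le (Nat.sub_le _ _)) (norm_nonneg _)
      _ = (∑ m ∈ Finset.range (μ + 1), ‖a m‖) * ‖x‖ ^ μ := by rw [Finset.sum_mul]
  have h3 : (∑ m ∈ Finset.range (μ + 1), ‖a m‖) * ‖x‖ ^ μ < ‖x‖ * ‖x‖ ^ μ :=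
    mul_lt_mul_of_pos_right hS (pow_pos (by linarith) _)
  have h4 : ‖x‖ * ‖x‖ ^ μ = ‖x‖ ^ (μ + 1) := by ring
  linarith

/-- Small root bound for a monic relation. -/
theorem norm_le_of_monic_relation_small {μ : ℕ} {x : ℂ} {a : ℕ → ℂ} {ε : ℝ} (hε : 0 < ε)
    (hε1 : ε ≤ 1)
    (h : x ^ (μ + 1) + ∑ m ∈ Finset.range (μ + 1), a m * x ^ (μ - m) = 0)
    (hS : ∑ m ∈ Finset.range (μ + 1), ‖a m‖ ≤ ε ^ (μ + 1)) : ‖x‖ ≤ ε := by
  have hS1 : ∑ m ∈ Finset.range (μ + 1), ‖a m‖ ≤ 1 := hS.trans (pow_le_one₀ hε.le hε1)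
  have hx1 : ‖x‖ ≤ 1 := (norm_le_of_monic_relation h).trans (max_le le_rfl hS1)
  have hx : x ^ (μ + 1) = -∑ m ∈ Finset.range (μ + 1), a m * x ^ (μ - m) :=
    eq_neg_of_add_eq_zero_left h
  have h2 : ‖x‖ ^ (μ + 1) ≤ ε ^ (μ + 1) := by
    calc ‖x‖ ^ (μ + 1) = ‖x ^ (μ + 1)‖ := (norm_pow _ _).symm
      _ = ‖∑ m ∈ Finset.range (μ + 1), a m * x ^ (μ - m)‖ := by rw [hx, norm_neg]
      _ ≤ ∑ m ∈ Finset.range (μ + 1), ‖a m * x ^ (μ - m)‖ := norm_sum_le _ _
      _ ≤ ∑ m ∈ Finset.range (μ + 1), ‖a m‖ := by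
          refine Finset.sum_le_sum fun m _ => ?_
          rw [norm_mul, norm_pow]
          exact mul_le_of_le_one_right (norm_nonneg _) (pow_le_one₀ (norm_nonneg _) hx1)
      _ ≤ ε ^ (μ + 1) := hS
  exact le_of_pow_le_pow_left₀ (Nat.succ_ne_zero μ) hε.le h2

/-- Removable singularities: a ratio `P / Q` of holomorphic functions on the upper half plane that
is locally bounded (and with `P` vanishing at the zeros of `Q`) is holomorphic. -/
theorem exists_mdiff_ratio {P Q : ℍ → ℂ} (hP : MDiff P) (hQ : MDiff Q) (hQ0 : Q ≠ 0)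
    (hbdd : ∀ z₀ : ℂ, 0 < z₀.im → ∃ s ∈ 𝓝 z₀,
      BddAbove (norm ∘ (fun z => (P ∘ ofComplex) z / (Q ∘ ofComplex) z) '' (s \ {z₀})))
    (hzero : ∀ τ, Q τ = 0 → P τ = 0) :
    ∃ G : ℍ → ℂ, MDiff G ∧ ∀ τ, G τ * Q τ = P τ := by
  set p : ℂ → ℂ := P ∘ ofComplex with hp
  set q : ℂ → ℂ := Q ∘ ofComplex with hq
  set r : ℂ → ℂ := fun z => p z / q z with hr
  have hpd : DifferentiableOn ℂ p upperHalfPlaneSet := mdifferentiable_iff.mp hP
  have hqd : DifferentiableOn ℂ q upperHalfPlaneSet := mdifferentiable_iff.mp hQ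
  have hrd : ∀ z : ℂ, 0 < z.im → q z ≠ 0 → DifferentiableAt ℂ r z := fun z hz hqz =>
    ((hpd z hz).differentiableAt (isOpen_upperHalfPlaneSet.mem_nhds hz)).div
      ((hqd z hz).differentiableAt (isOpen_upperHalfPlaneSet.mem_nhds hz)) hqz
  have hrlim : ∀ z : ℂ, 0 < z.im → q z ≠ 0 → limUnder (𝓝[≠] z) r = r z := fun z hz hqz =>
    ((hrd z hz hqz).continuousAt.tendsto.mono_left nhdsWithin_le_nhds).limUnder_eq
  set g0 : ℂ → ℂ := fun z => limUnder (𝓝[≠] z) r with hg0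
  have hg0d : ∀ z₀ : ℂ, 0 < z₀.im → DifferentiableAt ℂ g0 z₀ := by
    intro z₀ hz₀
    obtain ⟨s, hs, hsb⟩ := hbdd z₀ hz₀
    have hne : ∀ᶠ z in 𝓝 z₀, z ≠ z₀ → q z ≠ 0 :=
      eventually_nhdsWithin_iff.mp (eventually_ne_zero_of_mdiff hQ hQ0 z₀ hz₀)
    have hV : s ∩ {z | z ≠ z₀ → q z ≠ 0} ∩ upperHalfPlaneSet ∈ 𝓝 z₀ :=
      inter_mem (inter_mem hs hne) (isOpen_upperHalfPlaneSet.mem_nhds hz₀)
    obtain ⟨V, hVsub, hVo, hzV⟩ := mem_nhds_iff.mp hV
    have hVn : V ∈ 𝓝 z₀ := hVo.mem_nhds hzV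
    have hd : DifferentiableOn ℂ r (V \ {z₀}) := by
      intro z hz
      have hzV' := hVsub hz.1
      exact (hrd z hzV'.2 (hzV'.1.2 hz.2)).differentiableWithinAt
    have hb : BddAbove (norm ∘ r '' (V \ {z₀})) :=
      hsb.mono (Set.image_mono (Set.sdiff_subset_sdiff_left fun z hz => (hVsub hz).1.1))
    have hupd := Complex.differentiableOn_update_limUnder_of_bddAbove hVn hd hb
    have heq : ∀ z ∈ V, g0 z = Function.update r z₀ (limUnder (𝓝[≠] z₀) r) z := by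
      intro z hz
      by_cases hzz : z = z₀
      · subst hzz; simp [hg0]
      · have hzV' := hVsub hz
        rw [Function.update_of_ne hzz]
        exact hrlim z hzV'.2 (hzV'.1.2 hzz)
    exact (hupd.differentiableAt hVn).congr_of_eventuallyEq
      (Filter.eventually_of_mem hVn heq)
  refine ⟨fun τ => g0 τ, ?_, ?_⟩
  · rw [mdifferentiable_iff]
    intro z hz
    have : ((fun τ : ℍ => g0 τ) ∘ ofComplex) =ᶠ[𝓝 z] g0 := by
      filter_upwards [isOpen_upperHalfPlaneSet.mem_nhds hz] with x hx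
      simp only [Function.comp_apply, ofComplex_apply_of_im_pos hx]
    exact ((hg0d z hz).congr_of_eventuallyEq this).differentiableWithinAt
  · intro τ
    by_cases hQτ : Q τ = 0
    · rw [hQτ, mul_zero, hzero τ hQτ]
    · have hqτ : q τ ≠ 0 := by simpa [hq] using hQτ
      have h1 : g0 τ = r τ := hrlim τ τ.2 hqτ
      have h2 : r τ = P τ / Q τ := by simp [hr, hp, hq]
      show g0 τ * Q τ = P τ
      rw [h1, h2, div_mul_cancel₀ _ hQτ]

/-- General form of L5: an "integral" ratio of holomorphic functions is a cusp form. -/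
theorem exists_cuspForm_of_integral_ratio
    (Γ : Subgroup SL(2, ℤ)) [(Subgroup.map (Matrix.SpecialLinearGroup.mapGL ℝ) Γ).IsArithmetic]
    (k w : ℤ) (μ : ℕ)
    (P Q : ℍ → ℂ) (hP : MDiff P) (hQ : MDiff Q) (hQ0 : Q ≠ 0)
    (hPΓ : ∀ γ ∈ Γ, P ∣[k + w] γ = P) (hQΓ : ∀ γ ∈ Γ, Q ∣[w] γ = Q)
    (s : ℕ → ℍ → ℂ) (hs_cont : ∀ m, Continuous (s m))
    (hs_slash : ∀ (m : ℕ) (γ : SL(2, ℤ)), s m ∣[k * ((m : ℤ) + 1)] γ = s m)
    (hs_zero : ∀ m, IsZeroAtImInfty (s m))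
    (hrel : ∀ τ, P τ ^ (μ + 1)
      + ∑ m ∈ Finset.range (μ + 1), s m τ * P τ ^ (μ - m) * Q τ ^ (m + 1) = 0) :
    ∃ g : CuspForm (Subgroup.map (Matrix.SpecialLinearGroup.mapGL ℝ) Γ) k,
      ∀ τ, g τ * Q τ = P τ := by
  -- `P` vanishes at the zeros of `Q`
  have hzero : ∀ τ, Q τ = 0 → P τ = 0 := by
    intro τ hQτ
    have h := hrel τ
    rw [Finset.sum_eq_zero (fun m _ => by rw [hQτ, zero_pow (Nat.succ_ne_zero m), mul_zero]),
      add_zero] at h
    exact pow_eq_zero_iff (Nat.succ_ne_zero μ) |>.mp h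
  -- the relation satisfied by any `x` with `P τ = x * Q τ`, `Q τ ≠ 0`
  have hrelx : ∀ (τ : ℍ) (x : ℂ), Q τ ≠ 0 → P τ = x * Q τ →
      x ^ (μ + 1) + ∑ m ∈ Finset.range (μ + 1), s m τ * x ^ (μ - m) = 0 := by
    intro τ x hQτ hx
    have h := hrel τ
    rw [hx, relation_factor μ x (Q τ) (fun m => s m τ)] at h
    exact (mul_eq_zero.mp h).resolve_left (pow_ne_zero _ hQτ)
  -- local boundedness
  have hbdd : ∀ z₀ : ℂ, 0 < z₀.im → ∃ t ∈ 𝓝 z₀,
      BddAbove (norm ∘ (fun z => (P ∘ ofComplex) z / (Q ∘ ofComplex) z) '' (t \ {z₀})) := by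
    intro z₀ hz₀
    set S : ℂ → ℝ := fun z => ∑ m ∈ Finset.range (μ + 1), ‖s m (ofComplex z)‖ with hS
    have hScont : ContinuousAt S z₀ := by
      refine tendsto_finsetSum _ fun m _ => ?_
      exact ((hs_cont m).continuousAt.comp
        (mdifferentiableAt_ofComplex hz₀).continuousAt).norm
    have hev : ∀ᶠ z in 𝓝 z₀, S z < S z₀ + 1 :=
      hScont.eventually (gt_mem_nhds (lt_add_one _))
    refine ⟨{z | S z < S z₀ + 1}, hev, max 1 (S z₀ + 1), ?_⟩
    rintro _ ⟨z, hz, rfl⟩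
    simp only [Function.comp_apply]
    by_cases hq : Q (ofComplex z) = 0
    · rw [hq, div_zero, norm_zero]
      exact le_trans zero_le_one (le_max_left _ _)
    · have h1 := hrelx (ofComplex z) (P (ofComplex z) / Q (ofComplex z)) hq
        (by rw [div_mul_cancel₀ _ hq])
      refine (norm_le_of_monic_relation h1).trans (max_le_max le_rfl ?_)
      exact le_of_lt hz.1
  obtain ⟨G, hG, hGQ⟩ := exists_mdiff_ratio hP hQ hQ0 hbdd hzero
  have hGc : Continuous G := hG.continuous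
  -- the monic relation for `G`
  have hrelG : ∀ τ, G τ ^ (μ + 1) + ∑ m ∈ Finset.range (μ + 1), s m τ * G τ ^ (μ - m) = 0 := by
    have hF : Continuous fun τ => G τ ^ (μ + 1)
        + ∑ m ∈ Finset.range (μ + 1), s m τ * G τ ^ (μ - m) := by
      refine (hGc.pow _).add (continuous_finsetSum _ fun m _ => ?_)
      exact (hs_cont m).mul (hGc.pow _)
    have := eq_zero_of_forall_ne_zero hQ hQ0 hF
      (fun τ hQτ => hrelx τ (G τ) hQτ (hGQ τ).symm)
    exact fun τ => congrFun this τ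
  -- slash invariance
  have hGQ' : G * Q = P := funext hGQ
  have hslash : ∀ γ ∈ Γ, G ∣[k] γ = G := by
    intro γ hγ
    have hF : Continuous (G ∣[k] γ - G) :=
      ((hG.slash k (γ : GL (Fin 2) ℝ)).continuous).sub hGc
    have h0 := eq_zero_of_forall_ne_zero hQ hQ0 hF (fun τ hQτ => by
      have h1 : (G ∣[k] γ) * Q = G * Q := by
        calc (G ∣[k] γ) * Q = (G ∣[k] γ) * (Q ∣[w] γ) := by rw [hQΓ γ hγ]
          _ = (G * Q) ∣[k + w] γ := (mul_slash_SL2 k w γ G Q).symm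
          _ = G * Q := by rw [hGQ', hPΓ γ hγ]
      have h2 := congrFun h1 τ
      simp only [Pi.mul_apply] at h2
      simpa [sub_eq_zero] using mul_right_cancel₀ hQτ h2)
    exact sub_eq_zero.mp h0
  -- vanishing at the cusps
  have hcusp : ∀ γ : SL(2, ℤ), IsZeroAtImInfty (G ∣[k] γ) := by
    intro γ
    have hrelγ : ∀ τ, (G ∣[k] γ) τ ^ (μ + 1)
        + ∑ m ∈ Finset.range (μ + 1), s m τ * (G ∣[k] γ) τ ^ (μ - m) = 0 := by
      intro τ
      have hd : denom γ τ ≠ 0 := denom_ne_zero _ _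
      set d : ℂ := denom γ τ ^ (-k) with hdd
      have h1 := hrelG (γ • τ)
      have h2 : ∀ m : ℕ, s m τ = s m (γ • τ) * d ^ (m + 1) := by
        intro m
        have := congrFun (hs_slash m γ) τ
        rw [SL_slash_apply] at this
        rw [← this, hdd, ← zpow_natCast, ← zpow_mul]
        congr 2
        push_cast
        ring
      rw [SL_slash_apply, ← hdd]
      have h3 : (G (γ • τ) * d) ^ (μ + 1)
          + ∑ m ∈ Finset.range (μ + 1), s m τ * (G (γ • τ) * d) ^ (μ - m)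
          = d ^ (μ + 1) * (G (γ • τ) ^ (μ + 1)
            + ∑ m ∈ Finset.range (μ + 1), s m (γ • τ) * G (γ • τ) ^ (μ - m)) := by
        rw [mul_add, Finset.mul_sum, mul_pow]
        congr 1
        · ring
        · refine Finset.sum_congr rfl fun m hm => ?_
          have hm' : m ≤ μ := Nat.lt_succ_iff.mp (Finset.mem_range.mp hm)
          have : d ^ (μ + 1) = d ^ (m + 1) * d ^ (μ - m) := by
            rw [← pow_add]; congr 1; omega
          rw [h2 m, this, mul_pow]; ring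
      rw [h3, h1, mul_zero]
    rw [IsZeroAtImInfty, ZeroAtFilter, NormedAddGroup.tendsto_nhds_zero]
    intro ε hε
    set ε' : ℝ := min ε 1 / 2 with hε'
    have hε'pos : 0 < ε' := by positivity
    have hε'1 : ε' ≤ 1 := by
      have : min ε 1 ≤ 1 := min_le_right _ _
      linarith
    have hε'ε : ε' < ε := by
      have : min ε 1 ≤ ε := min_le_left _ _
      linarith
    have hS : Tendsto (fun τ => ∑ m ∈ Finset.range (μ + 1), ‖s m τ‖) atImInfty (𝓝 0) := by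
      have : Tendsto (fun τ => ∑ m ∈ Finset.range (μ + 1), ‖s m τ‖) atImInfty
          (𝓝 (∑ m ∈ Finset.range (μ + 1), (0 : ℝ))) :=
        tendsto_finsetSum _ fun m _ => by
          simpa using (hs_zero m).norm
      simpa using this
    have hev : ∀ᶠ τ in atImInfty, ∑ m ∈ Finset.range (μ + 1), ‖s m τ‖ < ε' ^ (μ + 1) :=
      hS.eventually (gt_mem_nhds (pow_pos hε'pos _))
    filter_upwards [hev] with τ hτ
    exact lt_of_le_of_lt
      (norm_le_of_monic_relation_small hε'pos hε'1 (hrelγ τ) hτ.le) hε'ε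
  refine ⟨{ toFun := G
            slash_action_eq' := ?_
            holo' := hG
            zero_at_cusps' := ?_ }, hGQ⟩
  · rintro _ ⟨γ, hγ, rfl⟩
    exact hslash γ hγ
  · intro c hc
    rw [Subgroup.IsArithmetic.isCusp_iff_isCusp_SL2Z] at hc
    rw [OnePoint.isZeroAt_iff_forall_SL2Z hc]
    exact fun γ _ => hcusp γ

/-- Slash action of `SL(2, ℤ)` on powers. -/
theorem pow_slash_SL2 (k : ℤ) (γ : SL(2, ℤ)) (f : ℍ → ℂ) (n : ℕ) :
    (f ^ n) ∣[k * (n : ℤ)] γ = (f ∣[k] γ) ^ n := by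
  ext τ
  simp only [SL_slash_apply, Pi.pow_apply, mul_pow]
  congr 1
  rw [← zpow_natCast, ← zpow_mul]
  congr 1
  ring

end Fermat.Agent.S23.Converse

namespace Fermat.Agent.S23

open UpperHalfPlane ModularForm Filter Topology
open scoped MatrixGroups ModularForm Manifold

open Converse in
theorem exists_cuspForm_of_relation (N : ℕ) [NeZero N] (k : ℤ)
    (u : ModularForm (CongruenceSubgroup.Gamma0 N) 12) (μ ν : ℕ) (w : ℤ)
    (b : ModularForm 𝒮ℒ w) (hb : b ≠ 0)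
    (a : (i : Fin μ) → ModularForm 𝒮ℒ (w + k - 12 * (i : ℕ)))
    (e : (m : Fin ν) → CuspForm 𝒮ℒ (k * ((m : ℕ) + 1)))
    (h : ∀ τ : ℍ, (∑ i : Fin μ, a i τ * u τ ^ (i : ℕ)) ^ ν
        + ∑ m : Fin ν, e m τ * (∑ i : Fin μ, a i τ * u τ ^ (i : ℕ)) ^ (ν - 1 - (m : ℕ))
            * b τ ^ ((m : ℕ) + 1) = 0) :
    ∃ g : CuspForm (CongruenceSubgroup.Gamma0 N) k,
      ∀ τ : ℍ, g τ * b τ = ∑ i : Fin μ, a i τ * u τ ^ (i : ℕ) := by
  rcases ν with _ | ν'
  · exfalso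
    have := h UpperHalfPlane.I
    simp at this
  set P : ℍ → ℂ := ∑ i : Fin μ, (⇑(a i)) * (⇑u) ^ (i : ℕ) with hPdef
  have hPapp : ∀ τ, P τ = ∑ i : Fin μ, a i τ * u τ ^ (i : ℕ) := by
    intro τ
    simp [hPdef, Finset.sum_apply]
  set s : ℕ → ℍ → ℂ := fun m => if hm : m < ν' + 1 then ⇑(e ⟨m, hm⟩) else 0 with hs
  have hP : MDiff P := by
    refine MDifferentiable.sum fun i _ => ?_
    exact (a i).holo'.mul (u.holo'.pow _)
  have hQ0 : (⇑b : ℍ → ℂ) ≠ 0 := fun h0 => hb (DFunLike.coe_injective (by simpa using h0))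
  have hSL : ∀ {k' : ℤ} (f : ModularForm 𝒮ℒ k') (γ : SL(2, ℤ)), (⇑f) ∣[k'] γ = ⇑f :=
    fun f γ => SlashInvariantForm.slash_action_eqn f _ ⟨γ, rfl⟩
  have hPΓ : ∀ γ ∈ CongruenceSubgroup.Gamma0 N, P ∣[k + w] γ = P := by
    intro γ hγ
    have hu : (⇑u) ∣[(12 : ℤ)] γ = ⇑u :=
      SlashInvariantForm.slash_action_eqn u _ (Subgroup.mem_map_of_mem _ hγ)
    rw [hPdef, SlashAction.sum_slash]
    refine Finset.sum_congr rfl fun i _ => ?_
    have hw : k + w = (w + k - 12 * ((i : ℕ) : ℤ)) + 12 * ((i : ℕ) : ℤ) := by ring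
    rw [hw, mul_slash_SL2, pow_slash_SL2, hu, hSL (a i) γ]
  have hQΓ : ∀ γ ∈ CongruenceSubgroup.Gamma0 N, (⇑b) ∣[w] γ = ⇑b := fun γ _ => hSL b γ
  have hs_cont : ∀ m, Continuous (s m) := by
    intro m
    simp only [hs]
    split_ifs with hm
    · exact (e ⟨m, hm⟩).holo'.continuous
    · exact continuous_zero
  have hs_slash : ∀ (m : ℕ) (γ : SL(2, ℤ)), s m ∣[k * ((m : ℤ) + 1)] γ = s m := by
    intro m γ
    simp only [hs]
    split_ifs with hm
    · exact SlashInvariantForm.slash_action_eqn (e ⟨m, hm⟩) _ ⟨γ, rfl⟩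
    · exact SlashAction.zero_slash _ _
  have hs_zero : ∀ m, IsZeroAtImInfty (s m) := by
    intro m
    simp only [hs]
    split_ifs with hm
    · exact CuspFormClass.zero_at_infty (e ⟨m, hm⟩)
    · exact Filter.zero_zeroAtFilter _
  have hrel : ∀ τ, P τ ^ (ν' + 1)
      + ∑ m ∈ Finset.range (ν' + 1), s m τ * P τ ^ (ν' - m) * (⇑b) τ ^ (m + 1) = 0 := by
    intro τ
    have h1 := h τ
    rw [← hPapp τ] at h1
    rw [← Fin.sum_univ_eq_sum_range (fun m => s m τ * P τ ^ (ν' - m) * (⇑b) τ ^ (m + 1))]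
    convert h1 using 2
    refine Finset.sum_congr rfl fun m _ => ?_
    simp only [hs, dif_pos m.2, Fin.eta]
    congr 2
  obtain ⟨g, hg⟩ := exists_cuspForm_of_integral_ratio (CongruenceSubgroup.Gamma0 N) k w ν' P (⇑b)
    hP b.holo' hQ0 hPΓ hQΓ s hs_cont hs_slash hs_zero hrel
  exact ⟨g, fun τ => by rw [hg τ, hPapp τ]⟩

end Fermat.Agent.S23
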