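import Mathlib
import Fermat.Agent.S23.Basic

/-!
# S23 team library: L6, descent of a finite-dimensional space of power series stable under
ring endomorphisms of `ℂ`

OWNER: helper24 (only the owner edits this file).

* `exists_ringHom_ne` : a complex number that is not rational is moved by some ring
  endomorphism of `ℂ`.
* `descent` : a finite-dimensional subspace of `ℂ⟦X⟧` stable under coefficientwise application
  of all ring endomorphisms of `ℂ` is spanned by its elements with rational coefficients.
-/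

set_option autoImplicit false

namespace Fermat.Agent.S23

open MvPolynomial in
/-- Extend a ring automorphism of a polynomial ring on a transcendence basis of `ℂ`
over a subfield to a ring automorphism of `ℂ`. -/
theorem exists_ringEquiv_of_mvPolynomial {K ι : Type*} [Field K] [Algebra K ℂ] (x : ι → ℂ)
    (hx : IsTranscendenceBasis K x) (e : MvPolynomial ι K ≃+* MvPolynomial ι K) :
    ∃ σ : ℂ ≃+* ℂ, ∀ p : MvPolynomial ι K, σ (aeval x p) = aeval x (e p) := by
  let _ := IsAlgClosed.isAlgClosure_of_transcendence_basis x hx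
  let eR : Algebra.adjoin K (Set.range x) ≃+* Algebra.adjoin K (Set.range x) :=
    hx.1.aevalEquiv.symm.toRingEquiv.trans (e.trans hx.1.aevalEquiv.toRingEquiv)
  refine ⟨IsAlgClosure.equivOfEquiv ℂ ℂ eR, fun p => ?_⟩
  rw [← hx.1.algebraMap_aevalEquiv p, IsAlgClosure.equivOfEquiv_algebraMap,
    ← hx.1.algebraMap_aevalEquiv (e p)]
  congr 1
  simp [eR]

/-- An algebraic irrational complex number is moved by a ring automorphism of `ℂ`. -/
theorem exists_ringEquiv_ne_of_isAlgebraic (z : ℂ) (hz : z ∉ Set.range ((↑) : ℚ → ℂ))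
    (halg : IsAlgebraic ℚ z) : ∃ σ : ℂ ≃+* ℂ, σ z ≠ z := by
  let K : IntermediateField ℚ ℂ := algebraicClosure ℚ ℂ
  have hzK : z ∈ K := (mem_algebraicClosure_iff).mpr halg
  let z' : K := ⟨z, hzK⟩
  have hz' : z' ∉ Set.range (algebraMap ℚ K) := by
    rintro ⟨q, hq⟩
    apply hz
    refine ⟨q, ?_⟩
    have := congrArg (fun t : K => (t : ℂ)) hq
    simpa [z'] using this
  have : IsAlgClosure ℚ K := algebraicClosure.isAlgClosure ℚ ℂ
  have : IsGalois ℚ K := IsAlgClosure.isGalois ℚ K
  rw [InfiniteGalois.mem_range_algebraMap_iff_fixed] at hz'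
  push Not at hz'
  obtain ⟨f, hf⟩ := hz'
  obtain ⟨s, hs⟩ := exists_isTranscendenceBasis K ℂ
  obtain ⟨σ, hσ⟩ := exists_ringEquiv_of_mvPolynomial (K := K) (Subtype.val : s → ℂ) hs
    (MvPolynomial.mapEquiv s f.toRingEquiv)
  refine ⟨σ, fun h => hf ?_⟩
  have h1 := hσ (MvPolynomial.C z')
  simp only [MvPolynomial.mapEquiv_apply, MvPolynomial.map_C, MvPolynomial.aeval_C] at h1
  apply Subtype.ext
  have h2 : σ z = ((f z' : K) : ℂ) := h1
  rw [h] at h2
  exact h2.symm

/-- A transcendental complex number is moved by a ring automorphism of `ℂ`. -/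
theorem exists_ringEquiv_ne_of_transcendental (z : ℂ) (htr : Transcendental ℚ z) :
    ∃ σ : ℂ ≃+* ℂ, σ z ≠ z := by
  classical
  have hs : AlgebraicIndepOn ℚ (id : ℂ → ℂ) {z} := by
    unfold AlgebraicIndepOn
    exact algebraicIndependent_unique_type_iff.mpr htr
  obtain ⟨t, hzt, ht⟩ := exists_isTranscendenceBasis_superset hs
  let z₀ : t := ⟨z, hzt rfl⟩
  let g : t → MvPolynomial t ℚ :=
    fun i => if i = z₀ then - MvPolynomial.X i else MvPolynomial.X i
  let φ : MvPolynomial t ℚ →ₐ[ℚ] MvPolynomial t ℚ := MvPolynomial.aeval g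
  have hφ : φ.comp φ = AlgHom.id ℚ _ := by
    apply MvPolynomial.algHom_ext
    intro i
    simp only [φ, g, AlgHom.comp_apply, MvPolynomial.aeval_X, AlgHom.id_apply]
    split_ifs with h <;> simp [h]
  let e : MvPolynomial t ℚ ≃ₐ[ℚ] MvPolynomial t ℚ := AlgEquiv.ofAlgHom φ φ hφ hφ
  obtain ⟨σ, hσ⟩ := exists_ringEquiv_of_mvPolynomial (K := ℚ) ((↑) : t → ℂ) ht e.toRingEquiv
  refine ⟨σ, fun h => ?_⟩
  have h1 := hσ (MvPolynomial.X z₀)
  have h2 : σ z = -z := by
    simpa [e, φ, g, z₀] using h1
  rw [h] at h2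
  have hz0 : z = 0 := by
    have : (2 : ℂ) * z = 0 := by linear_combination h2
    simpa using this
  exact htr (hz0 ▸ isAlgebraic_zero)

/-- A complex number which is not rational is moved by some ring endomorphism of `ℂ`. -/
theorem exists_ringHom_ne (z : ℂ) (hz : z ∉ Set.range ((↑) : ℚ → ℂ)) :
    ∃ σ : ℂ →+* ℂ, σ z ≠ z := by
  by_cases halg : IsAlgebraic ℚ z
  · obtain ⟨σ, hσ⟩ := exists_ringEquiv_ne_of_isAlgebraic z hz halg
    exact ⟨σ.toRingHom, hσ⟩
  · obtain ⟨σ, hσ⟩ := exists_ringEquiv_ne_of_transcendental z halg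
    exact ⟨σ.toRingHom, hσ⟩

/-- **Descent.** A finite-dimensional space of complex power series which is stable under
coefficientwise application of every ring endomorphism of `ℂ` is spanned by its elements with
rational coefficients. -/
theorem descent (W : Submodule ℂ (PowerSeries ℂ)) [FiniteDimensional ℂ W]
    (hW : ∀ σ : ℂ →+* ℂ, ∀ w ∈ W, PowerSeries.map σ w ∈ W) :
    W ≤ Submodule.span ℂ
      {w | w ∈ W ∧ ∀ n, PowerSeries.coeff n w ∈ Set.range ((↑) : ℚ → ℂ)} := by
  classical
  -- the coefficient functionals on `W`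
  let c : ℕ → Module.Dual ℂ W := fun n => (PowerSeries.coeff (R := ℂ) n) ∘ₗ W.subtype
  have hc : ∀ (n : ℕ) (w : W), c n w = PowerSeries.coeff n (w : PowerSeries ℂ) := fun _ _ => rfl
  -- they separate the points of `W`
  have hsep : ∀ w : W, (∀ n, c n w = 0) → w = 0 := by
    intro w hw
    apply Subtype.ext
    ext n
    simpa [hc] using hw n
  -- hence they span the dual
  have hspan : Submodule.span ℂ (Set.range c) = ⊤ := by
    have h1 : (Submodule.span ℂ (Set.range c)).dualCoannihilator = ⊥ := by
      rw [eq_bot_iff]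
      intro w hw
      rw [Submodule.mem_dualCoannihilator] at hw
      rw [Submodule.mem_bot]
      exact hsep w fun n => hw (c n) (Submodule.subset_span ⟨n, rfl⟩)
    have h2 := Subspace.dualCoannihilator_dualAnnihilator_eq
      (W := Submodule.span ℂ (Set.range c))
    rw [h1, Submodule.dualAnnihilator_bot] at h2
    exact h2.symm
  -- extract a basis of the dual consisting of coefficient functionals
  obtain ⟨b, hbS, hbspan, hli⟩ := exists_linearIndependent ℂ (Set.range c)
  have hbtop : Submodule.span ℂ b = ⊤ := by rw [hbspan, hspan]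
  have hfin : b.Finite := hli.setFinite
  have : Fintype b := hfin.fintype
  -- evaluation against the basis
  let Ψ : W →ₗ[ℂ] (b → ℂ) :=
    { toFun := fun w i => (i : Module.Dual ℂ W) w
      map_add' := fun w w' => by ext i; simp
      map_smul' := fun a w => by ext i; simp }
  have hΨ : ∀ (w : W) (i : b), Ψ w i = (i : Module.Dual ℂ W) w := fun _ _ => rfl
  have hΨinj : Function.Injective Ψ := by
    rw [← LinearMap.ker_eq_bot, eq_bot_iff]
    intro w hw
    rw [LinearMap.mem_ker] at hw
    rw [Submodule.mem_bot]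
    have hall : ∀ φ ∈ Submodule.span ℂ b, φ w = 0 := by
      intro φ hφ
      induction hφ using Submodule.span_induction with
      | mem x hx => exact congrFun hw ⟨x, hx⟩
      | zero => simp
      | add x y _ _ hx hy => simp [hx, hy]
      | smul a x _ hx => simp [hx]
    exact hsep w fun n => hall (c n) (by rw [hbtop]; exact Submodule.mem_top)
  have hcard : Module.finrank ℂ W = Module.finrank ℂ (b → ℂ) := by
    rw [Module.finrank_fintype_fun_eq_card, ← Subspace.dual_finrank_eq,
      ← Set.toFinset_card, ← finrank_span_set_eq_card hli, hbtop, finrank_top]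
  have hΨsurj : Function.Surjective Ψ :=
    (LinearMap.injective_iff_surjective_of_finrank_eq_finrank hcard).mp hΨinj
  -- the dual basis
  choose v hv using fun i : b => hΨsurj (Pi.single i 1)
  -- each dual basis vector is fixed by all ring endomorphisms
  have hfix : ∀ (σ : ℂ →+* ℂ) (i : b),
      PowerSeries.map σ (v i : PowerSeries ℂ) = (v i : PowerSeries ℂ) := by
    intro σ i
    have hmem := hW σ _ (v i).2
    have : (⟨_, hmem⟩ : W) = v i := by
      apply hΨinj
      ext j
      obtain ⟨n, hn⟩ := hbS j.2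
      rw [hΨ, hΨ, ← hn, hc, hc]
      have hj : PowerSeries.coeff n (v i : PowerSeries ℂ) = (Pi.single i (1 : ℂ) : b → ℂ) j := by
        rw [← hv i, hΨ, ← hn, hc]
      rw [PowerSeries.coeff_map, hj]
      by_cases hij : j = i
      · subst hij; simp
      · simp [hij]
    exact congrArg Subtype.val this
  -- hence has rational coefficients
  have hrat : ∀ (i : b) (n : ℕ),
      PowerSeries.coeff n (v i : PowerSeries ℂ) ∈ Set.range ((↑) : ℚ → ℂ) := by
    intro i n
    by_contra hnot
    obtain ⟨σ, hσ⟩ := exists_ringHom_ne _ hnot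
    apply hσ
    have := congrArg (PowerSeries.coeff n) (hfix σ i)
    rwa [PowerSeries.coeff_map] at this
  -- and the dual basis spans
  intro w hw
  have hdecomp : (⟨w, hw⟩ : W) = ∑ i : b, Ψ ⟨w, hw⟩ i • v i := by
    apply hΨinj
    rw [map_sum]
    ext j
    simp only [map_smul, hv, Finset.sum_apply, Pi.smul_apply, smul_eq_mul, Pi.single_apply,
      mul_ite, mul_one, mul_zero, Finset.sum_ite_eq, Finset.mem_univ, if_true]
  have hw' : w = ∑ i : b, Ψ ⟨w, hw⟩ i • (v i : PowerSeries ℂ) := by
    have := congrArg (Subtype.val : W → PowerSeries ℂ) hdecomp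
    simpa using this
  rw [hw']
  refine Submodule.sum_mem _ fun i _ => Submodule.smul_mem _ _ (Submodule.subset_span ?_)
  exact ⟨(v i).2, hrat i⟩

end Fermat.Agent.S23
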