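import Mathlib
import Fermat.Agent.S23.Basic

/-!
# S23 team library: L4, a cusp form on `Γ₀(N)` is integral over level-one cusp forms

OWNER: helper84 (only the owner edits this file).
-/

set_option autoImplicit false

namespace Fermat.Agent.S23

open UpperHalfPlane ModularForm
open scoped MatrixGroups ModularForm Manifold

namespace Integrality

open SlashInvariantForm Finset Filter Topology

variable {𝒢 : Subgroup (GL (Fin 2) ℝ)} [𝒢.IsArithmetic] {k : ℤ} (f : CuspForm 𝒢 k)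

local notation "𝒬" => 𝒮ℒ ⧸ (𝒢.subgroupOf 𝒮ℒ)

/-- The `j`-th elementary symmetric function of the `𝒮ℒ`-translates of `f`. -/
noncomputable def esymmFun (j : ℕ) : ℍ → ℂ :=
  letI := Fintype.ofFinite 𝒬
  ∑ S ∈ powersetCard j (univ : Finset 𝒬), ∏ q ∈ S, quotientFunc f q

theorem esymmFun_slash (j : ℕ) {h : GL (Fin 2) ℝ} (hh : h ∈ 𝒮ℒ) :
    esymmFun f j ∣[k * j] h = esymmFun f j := by
  classical
  let _ := Fintype.ofFinite 𝒬
  unfold esymmFun
  rw [SlashAction.sum_slash]
  set σ : Equiv.Perm 𝒬 := MulAction.toPerm ((⟨h, hh⟩ : 𝒮ℒ)⁻¹) with hσ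
  have key : ∀ S ∈ powersetCard j (univ : Finset 𝒬),
      (∏ q ∈ S, quotientFunc f q) ∣[k * j] h =
        ∏ q ∈ S.map σ.toEmbedding, quotientFunc f q := by
    intro S hS
    rw [← (mem_powersetCard.mp hS).2, ModularForm.prod_slash,
      Subgroup.HasDetPlusMinusOne.abs_det hh, one_zpow, one_smul, Finset.prod_map]
    refine Finset.prod_congr rfl fun q _ => ?_
    rw [quotientFunc_smul f hh]
    rfl
  rw [Finset.sum_congr rfl key]
  refine Finset.sum_nbij' (fun S => S.map σ.toEmbedding) (fun S => S.map σ.symm.toEmbedding)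
    ?_ ?_ ?_ ?_ ?_
  · intro S hS
    rw [mem_powersetCard] at hS ⊢
    exact ⟨subset_univ _, by rw [card_map]; exact hS.2⟩
  · intro S hS
    rw [mem_powersetCard] at hS ⊢
    exact ⟨subset_univ _, by rw [card_map]; exact hS.2⟩
  · intro S _
    ext q
    simp
  · intro S _
    ext q
    simp
  · intro S _
    rfl

omit [𝒢.IsArithmetic] in
theorem mdiff_quotientFunc (q : 𝒬) : MDiff (quotientFunc f q) := by
  induction q using Quotient.inductionOn with
  | h r => exact (ModularForm.translate f r.val⁻¹).holo'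

theorem mdiff_esymmFun (j : ℕ) : MDiff (esymmFun f j) := by
  let _ := Fintype.ofFinite 𝒬
  exact MDifferentiable.sum fun S _ => MDifferentiable.prod fun q _ => mdiff_quotientFunc f q

theorem isZeroAtImInfty_quotientFunc (q : 𝒬) : IsZeroAtImInfty (quotientFunc f q) := by
  induction q using Quotient.inductionOn with
  | h r =>
    obtain ⟨r, g, rfl⟩ := r
    have h1 := CuspFormClass.zero_at_infty_slash f g⁻¹
    rw [ModularForm.SL_slash] at h1
    have h2 : quotientFunc f (⟦⟨Matrix.SpecialLinearGroup.mapGL ℝ g, ⟨g, rfl⟩⟩⟧ : 𝒬) =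
        (f : ℍ → ℂ) ∣[k] (Matrix.SpecialLinearGroup.mapGL ℝ g)⁻¹ := rfl
    rw [h2, ← map_inv]
    exact h1

theorem isZeroAtImInfty_esymmFun (j : ℕ) (hj : 0 < j) : IsZeroAtImInfty (esymmFun f j) := by
  let _ := Fintype.ofFinite 𝒬
  have h1 : ∀ S ∈ powersetCard j (univ : Finset 𝒬),
      Tendsto (fun τ => ∏ q ∈ S, quotientFunc f q τ) atImInfty (𝓝 0) := by
    intro S hS
    have h := tendsto_finsetProd S (fun q _ => isZeroAtImInfty_quotientFunc f q)
    rw [Finset.prod_const, (mem_powersetCard.mp hS).2, zero_pow hj.ne'] at h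
    exact h
  have h2 := tendsto_finsetSum _ h1
  rw [Finset.sum_const_zero] at h2
  have h3 : esymmFun f j = fun τ => ∑ S ∈ powersetCard j (univ : Finset 𝒬),
      ∏ q ∈ S, quotientFunc f q τ := by
    ext τ
    simp [esymmFun, Finset.sum_apply, Finset.prod_apply]
  rw [h3]
  exact h2

/-- The elementary symmetric functions of the translates, as level-one cusp forms. -/
noncomputable def esymmCusp (j : ℕ) (hj : 0 < j) (w : ℤ) (hw : w = k * j) : CuspForm 𝒮ℒ w where
  toFun := esymmFun f j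
  slash_action_eq' h hh := by
    subst hw
    exact esymmFun_slash f j hh
  holo' := mdiff_esymmFun f j
  zero_at_cusps' {c} hc := by
    subst hw
    rw [OnePoint.isZeroAt_iff_forall_SL2Z hc]
    intro γ _
    have h3 : (esymmFun f j ∣[k * (j : ℤ)] γ) = esymmFun f j := by
      rw [ModularForm.SL_slash]
      exact esymmFun_slash f j (h := Matrix.SpecialLinearGroup.mapGL ℝ γ) ⟨γ, rfl⟩
    rw [h3]
    exact isZeroAtImInfty_esymmFun f j hj

@[simp] theorem esymmCusp_apply (j : ℕ) (hj : 0 < j) (w : ℤ) (hw : w = k * j) (τ : ℍ) :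
    esymmCusp f j hj w hw τ = esymmFun f j τ := rfl

theorem esymmFun_zero (τ : ℍ) : esymmFun f 0 τ = 1 := by
  simp [esymmFun]

theorem esymm_relation (τ : ℍ) :
    letI := Fintype.ofFinite 𝒬
    ∑ j ∈ range (Fintype.card 𝒬 + 1),
      (-1) ^ j * (esymmFun f j τ * f τ ^ (Fintype.card 𝒬 - j)) = 0 := by
  classical
  let _ := Fintype.ofFinite 𝒬
  set s : Multiset ℂ := (univ : Finset 𝒬).val.map fun q => quotientFunc f q τ with hs
  have hcard : Multiset.card s = Fintype.card 𝒬 := by simp [hs]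
  have hV := Multiset.prod_X_sub_X_eq_sum_esymm s
  have hmem : f τ ∈ s := by
    rw [hs, Multiset.mem_map]
    refine ⟨(⟦1⟧ : 𝒬), by simp, ?_⟩
    have : quotientFunc f (⟦1⟧ : 𝒬) = (f : ℍ → ℂ) ∣[k] ((1 : 𝒮ℒ).val)⁻¹ := rfl
    rw [this]
    simp
  have hroot : ((s.map fun t => Polynomial.X - Polynomial.C t).prod).eval (f τ) = 0 := by
    rw [Polynomial.eval_multiset_prod]
    apply Multiset.prod_eq_zero
    rw [Multiset.mem_map]
    refine ⟨Polynomial.X - Polynomial.C (f τ), Multiset.mem_map.mpr ⟨f τ, hmem, rfl⟩, by simp⟩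
  rw [hV, Polynomial.eval_finsetSum, hcard] at hroot
  rw [← hroot]
  refine Finset.sum_congr rfl fun j _ => ?_
  have hes : s.esymm j = esymmFun f j τ := by
    rw [hs, Finset.esymm_map_val]
    simp [esymmFun, Finset.sum_apply, Finset.prod_apply]
  simp [hes]

end Integrality

open Integrality in
theorem exists_integrality_relation (N : ℕ) [NeZero N] (k : ℤ)
    (f : CuspForm (CongruenceSubgroup.Gamma0 N) k) :
    ∃ (ν : ℕ) (e : (m : Fin ν) → CuspForm 𝒮ℒ (k * ((m : ℕ) + 1))),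
      ∀ τ : ℍ, f τ ^ ν + ∑ m : Fin ν, e m τ * f τ ^ (ν - 1 - (m : ℕ)) = 0 := by
  classical
  let _ := Fintype.ofFinite (𝒮ℒ ⧸ ((CongruenceSubgroup.Gamma0 N : Subgroup (GL (Fin 2) ℝ)).subgroupOf 𝒮ℒ))
  refine ⟨Fintype.card (𝒮ℒ ⧸ ((CongruenceSubgroup.Gamma0 N : Subgroup (GL (Fin 2) ℝ)).subgroupOf 𝒮ℒ)),
    fun m => ((-1 : ℂ) ^ ((m : ℕ) + 1)) • esymmCusp f ((m : ℕ) + 1) (Nat.succ_pos _) _
      (by push_cast; ring), fun τ => ?_⟩
  have h := esymm_relation f τ
  rw [Finset.sum_range_succ'] at h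
  simp only [pow_zero, one_mul, esymmFun_zero, Nat.sub_zero] at h
  rw [add_comm] at h
  rw [← h]
  congr 1
  rw [← Fin.sum_univ_eq_sum_range]
  refine Finset.sum_congr rfl fun m _ => ?_
  simp only [FunLike.coe_smul, Pi.smul_apply, esymmCusp_apply, smul_eq_mul]
  rw [Nat.sub_sub, add_comm 1 (m : ℕ)]
  ring

end Fermat.Agent.S23
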