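import Mathlib
import Fermat.Agent.S23.Basic

/-!
# S23 team library: L1, level-one forms are spanned by forms with bounded-denominator rational q-expansions

OWNER: helper16 (only the owner edits this file).
-/

set_option autoImplicit false

namespace Fermat.Agent.S23

open UpperHalfPlane ModularForm
open scoped MatrixGroups ModularForm Manifold

namespace L1

/-- Coefficientwise characterisation of `IsRatBdd`. -/
theorem isRatBdd_iff_coeff (P : PowerSeries ℂ) :
    IsRatBdd P ↔ ∃ D : ℤ, D ≠ 0 ∧ ∀ n : ℕ, ∃ m : ℤ, (D : ℂ) * P.coeff n = (m : ℂ) := by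
  constructor
  · rintro ⟨D, hD, Q, hQ⟩
    refine ⟨D, hD, fun n => ⟨Q.coeff n, ?_⟩⟩
    have := congrArg (fun R : PowerSeries ℂ => R.coeff n) hQ
    simp only [PowerSeries.coeff_map, eq_intCast, PowerSeries.coeff_smul, smul_eq_mul] at this
    exact this.symm
  · rintro ⟨D, hD, h⟩
    choose m hm using h
    refine ⟨D, hD, PowerSeries.mk m, ?_⟩
    ext n
    simp [hm n]

theorem map_smul_eq (σ : ℂ →+* ℂ) (c : ℂ) (P : PowerSeries ℂ) :
    PowerSeries.map σ (c • P) = σ c • PowerSeries.map σ P := by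
  ext n
  simp

open EisensteinSeries in
/-- The Eisenstein series `E_k` has rational q-expansion with bounded denominators. -/
theorem isRatBdd_E {k : ℕ} (hk : 3 ≤ k) (hk2 : Even k) :
    IsRatBdd (qExpansion 1 (E hk)) := by
  rw [isRatBdd_iff_coeff]
  set r : ℚ := 2 * k / bernoulli k with hr
  refine ⟨r.den, by exact_mod_cast r.den_ne_zero, fun n => ?_⟩
  rw [E_qExpansion_coeff hk hk2 n]
  split_ifs with hn
  · exact ⟨r.den, by simp⟩
  · refine ⟨-(r.num * (ArithmeticFunction.sigma (k - 1) n : ℤ)), ?_⟩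
    have hrc : (2 * k / bernoulli k : ℂ) = (r : ℂ) := by
      rw [hr]; push_cast; rfl
    have hr' : (r : ℂ) * (r.den : ℂ) = (r.num : ℂ) := by
      have := Rat.mul_den_eq_num r
      exact_mod_cast congrArg (fun x : ℚ => (x : ℂ)) this
    rw [hrc]
    push_cast
    rw [← hr']
    ring

/-- Multiplication by the discriminant, as a linear map from weight `k - 12` to weight `k`. -/
noncomputable def mulDisc (k : ℤ) : ModularForm 𝒮ℒ (k - 12) →ₗ[ℂ] ModularForm 𝒮ℒ k :=
  CuspForm.toModularFormₗ ∘ₗ (CuspForm.discriminantEquiv (k := k)).symm.toLinearMap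

theorem coe_mulDisc (k : ℤ) (t : ModularForm 𝒮ℒ (k - 12)) :
    (mulDisc k t : ℍ → ℂ) = (CuspForm.discriminant : ℍ → ℂ) * (t : ℍ → ℂ) := by
  funext z
  rfl

theorem qExpansion_mulDisc (k : ℤ) (t : ModularForm 𝒮ℒ (k - 12)) :
    qExpansion 1 (mulDisc k t) = qExpansion 1 ModularForm.discriminant * qExpansion 1 t := by
  rw [coe_mulDisc, ← CuspForm.coe_discriminant]
  exact ModularForm.qExpansion_mul_coe one_pos one_mem_strictPeriods_SL _ _

end L1

open EisensteinSeries in
theorem isRatBdd_qExpansion_discriminant :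
    IsRatBdd (qExpansion 1 (ModularForm.discriminant : ℍ → ℂ)) := by
  set F12 : ModularForm 𝒮ℒ 12 :=
    ModularForm.mcast (by decide) (E₄.pow 3) - ModularForm.mcast (by decide) (E₆.pow 2) with hF
  have hq : qExpansion 1 F12 = qExpansion 1 E₄ ^ 3 - qExpansion 1 E₆ ^ 2 := by
    simp only [hF, FunLike.coe_sub, coe_mcast,
      ModularForm.qExpansion_sub one_pos one_mem_strictPeriods_SL,
      ModularForm.qExpansion_pow one_pos one_mem_strictPeriods_SL]
  have hfun : (F12 : ℍ → ℂ) = (1728 : ℂ) • (CuspForm.discriminant : ℍ → ℂ) := by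
    funext z
    simp only [hF, coe_mcast, coe_pow, sub_apply, Pi.pow_apply, Pi.smul_apply, smul_eq_mul,
      CuspForm.coe_discriminant]
    rw [discriminant_eq_E₄_cube_sub_E₆_sq]
    field_simp
  have h2 : qExpansion 1 F12 = (1728 : ℂ) • qExpansion 1 (CuspForm.discriminant) := by
    rw [hfun, ModularForm.qExpansion_smul one_pos one_mem_strictPeriods_SL]
  have h3 : qExpansion 1 ModularForm.discriminant =
      ((1 / 1728 : ℚ) : ℂ) • (qExpansion 1 E₄ ^ 3 - qExpansion 1 E₆ ^ 2) := by
    rw [← hq, h2, ← CuspForm.coe_discriminant, smul_smul]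
    norm_num
  rw [h3]
  exact (((L1.isRatBdd_E _ ⟨2, rfl⟩).pow 3).sub ((L1.isRatBdd_E _ ⟨3, rfl⟩).pow 2)).smul_rat _

open EisensteinSeries in
theorem levelOne_span_ratBdd (k : ℤ) :
    Submodule.span ℂ {s : ModularForm 𝒮ℒ k | IsRatBdd (qExpansion 1 s)} = ⊤ := by
  induction' hn : k.toNat using Nat.strong_induction_on with n ih generalizing k
  rw [eq_top_iff]
  rintro s -
  rcases lt_or_ge k 0 with hk | hk
  · have : s = 0 := rank_zero_iff_forall_zero.mp (levelOne_neg_weight_rank_zero hk) s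
    rw [this]; exact Submodule.zero_mem _
  rcases Int.even_or_odd k with hev | hodd
  swap
  · rw [levelOne_odd_weight_eq_zero hodd s]; exact Submodule.zero_mem _
  lift k to ℕ using hk
  have hev' : Even k := by exact_mod_cast hev
  rcases Nat.lt_or_ge k 3 with hk3 | hk3
  · interval_cases k
    · obtain ⟨c, hc⟩ := ModularFormClass.levelOne_weight_zero_const s
      have hs : s = c • (1 : ModularForm 𝒮ℒ 0) := by
        ext z
        simp [hc]
      rw [hs]
      refine Submodule.smul_mem _ _ (Submodule.subset_span ?_)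
      show IsRatBdd _
      rw [ModularForm.qExpansion_one]
      exact isRatBdd_one
    · exact absurd hev' (by decide)
    · have : s = 0 := rank_zero_iff_forall_zero.mp levelOne_weight_two_rank_zero s
      rw [this]; exact Submodule.zero_mem _
  · have hE0 := E_qExpansion_coeff_zero hk3 hev'
    obtain ⟨g, hg⟩ := ModularForm.sub_smul_isCuspForm s (E hk3) hE0
    have hIH := ih ((k : ℤ) - 12).toNat (by omega) ((k : ℤ) - 12) rfl
    have hmap : ∀ t ∈ Submodule.span ℂ
        {s : ModularForm 𝒮ℒ ((k : ℤ) - 12) | IsRatBdd (qExpansion 1 s)},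
        L1.mulDisc (k : ℤ) t ∈
          Submodule.span ℂ {s : ModularForm 𝒮ℒ (k : ℤ) | IsRatBdd (qExpansion 1 s)} := by
      intro t ht
      induction ht using Submodule.span_induction with
      | mem t ht =>
        refine Submodule.subset_span ?_
        show IsRatBdd _
        rw [L1.qExpansion_mulDisc]
        exact isRatBdd_qExpansion_discriminant.mul ht
      | zero => rw [map_zero]; exact Submodule.zero_mem _
      | add x y _ _ hx hy => rw [map_add]; exact Submodule.add_mem _ hx hy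
      | smul c x _ hx => rw [map_smul]; exact Submodule.smul_mem _ _ hx
    have ht := hmap (CuspForm.discriminantEquiv g) (by rw [hIH]; exact Submodule.mem_top)
    have hΦ : L1.mulDisc (k : ℤ) (CuspForm.discriminantEquiv g) =
        s - (qExpansion 1 s).coeff 0 • E hk3 := by
      rw [← hg]
      simp [L1.mulDisc]
    rw [hΦ] at ht
    have hE : E hk3 ∈ Submodule.span ℂ
        {s : ModularForm 𝒮ℒ (k : ℤ) | IsRatBdd (qExpansion 1 s)} :=
      Submodule.subset_span (L1.isRatBdd_E hk3 hev')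
    have := Submodule.add_mem _ ht (Submodule.smul_mem _ ((qExpansion 1 s).coeff 0) hE)
    simpa using this

theorem levelOne_qExpansion_mem_span (k : ℤ) (s : ModularForm 𝒮ℒ k) :
    qExpansion 1 s ∈ Submodule.span ℂ {P : PowerSeries ℂ | IsRatBdd P} := by
  have hs : s ∈ Submodule.span ℂ {s : ModularForm 𝒮ℒ k | IsRatBdd (qExpansion 1 s)} := by
    rw [levelOne_span_ratBdd]; exact Submodule.mem_top
  induction hs using Submodule.span_induction with
  | mem t ht => exact Submodule.subset_span ht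
  | zero =>
    rw [show ((0 : ModularForm 𝒮ℒ k) : ℍ → ℂ) = 0 from rfl, qExpansion_zero]
    exact Submodule.zero_mem _
  | add x y _ _ hx hy =>
    rw [show ((x + y : ModularForm 𝒮ℒ k) : ℍ → ℂ) = ⇑x + ⇑y from rfl,
      ModularForm.qExpansion_add one_pos one_mem_strictPeriods_SL]
    exact Submodule.add_mem _ hx hy
  | smul c x _ hx =>
    rw [show ((c • x : ModularForm 𝒮ℒ k) : ℍ → ℂ) = c • ⇑x from rfl,
      ModularForm.qExpansion_smul one_pos one_mem_strictPeriods_SL]
    exact Submodule.smul_mem _ _ hx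

theorem levelOne_exists_conj (k : ℤ) (s : ModularForm 𝒮ℒ k) (σ : ℂ →+* ℂ) :
    ∃ s' : ModularForm 𝒮ℒ k, qExpansion 1 s' = PowerSeries.map σ (qExpansion 1 s) := by
  have hs : s ∈ Submodule.span ℂ {s : ModularForm 𝒮ℒ k | IsRatBdd (qExpansion 1 s)} := by
    rw [levelOne_span_ratBdd]; exact Submodule.mem_top
  induction hs using Submodule.span_induction with
  | mem t ht => exact ⟨t, (IsRatBdd.map_eq ht σ).symm⟩
  | zero =>
    refine ⟨0, ?_⟩
    rw [show ((0 : ModularForm 𝒮ℒ k) : ℍ → ℂ) = 0 from rfl, qExpansion_zero, map_zero]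
  | add x y _ _ hx hy =>
    obtain ⟨x', hx'⟩ := hx
    obtain ⟨y', hy'⟩ := hy
    refine ⟨x' + y', ?_⟩
    rw [show ((x' + y' : ModularForm 𝒮ℒ k) : ℍ → ℂ) = ⇑x' + ⇑y' from rfl,
      show ((x + y : ModularForm 𝒮ℒ k) : ℍ → ℂ) = ⇑x + ⇑y from rfl,
      ModularForm.qExpansion_add one_pos one_mem_strictPeriods_SL,
      ModularForm.qExpansion_add one_pos one_mem_strictPeriods_SL, map_add, hx', hy']
  | smul c x _ hx =>
    obtain ⟨x', hx'⟩ := hx
    refine ⟨σ c • x', ?_⟩
    rw [show ((σ c • x' : ModularForm 𝒮ℒ k) : ℍ → ℂ) = σ c • ⇑x' from rfl,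
      show ((c • x : ModularForm 𝒮ℒ k) : ℍ → ℂ) = c • ⇑x from rfl,
      ModularForm.qExpansion_smul one_pos one_mem_strictPeriods_SL,
      ModularForm.qExpansion_smul one_pos one_mem_strictPeriods_SL, L1.map_smul_eq, hx']

theorem levelOne_cusp_exists_conj (k : ℤ) (s : CuspForm 𝒮ℒ k) (σ : ℂ →+* ℂ) :
    ∃ s' : CuspForm 𝒮ℒ k, qExpansion 1 s' = PowerSeries.map σ (qExpansion 1 s) := by
  obtain ⟨m', hm'⟩ := levelOne_exists_conj k (CuspForm.toModularFormₗ s) σ
  have hcoe : ((CuspForm.toModularFormₗ s : ModularForm 𝒮ℒ k) : ℍ → ℂ) = ⇑s := rfl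
  rw [hcoe] at hm'
  have h0 : (qExpansion 1 m').coeff 0 = 0 := by
    rw [hm', PowerSeries.coeff_map,
      CuspFormClass.qExpansion_coeff_zero s one_pos one_mem_strictPeriods_SL, map_zero]
  refine ⟨toCuspForm m' h0, ?_⟩
  rw [show ((toCuspForm m' h0 : CuspForm 𝒮ℒ k) : ℍ → ℂ) = ⇑m' from rfl, hm']

end Fermat.Agent.S23
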