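import Mathlib

/-!
# S23 team library: determinants of matrices of level-one modular forms

If `M i j` is a level-one modular form of weight `wt i + vt j`, then `det (M i j)` is a level-one
modular form of weight `∑ wt + ∑ vt` (Leibniz formula).

OWNER: helper2 (only the owner edits this file).
-/

set_option autoImplicit false

namespace Fermat.Agent.S23

open UpperHalfPlane ModularForm
open scoped MatrixGroups ModularForm Manifold

/-- The Leibniz term attached to a permutation, as a modular form. -/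
noncomputable def detFormTerm (μ : ℕ) (wt vt : Fin μ → ℤ)
    (M : (i j : Fin μ) → ModularForm 𝒮ℒ (wt i + vt j)) (σ : Equiv.Perm (Fin μ)) :
    ModularForm 𝒮ℒ (∑ i, wt i + ∑ j, vt j) :=
  ModularForm.prod (s := Finset.univ) (k := fun i => wt (σ i) + vt i) (∑ i, wt i + ∑ j, vt j)
    (by rw [Finset.sum_add_distrib, Equiv.sum_comp σ wt]) (fun i => M (σ i) i)

theorem detFormTerm_apply (μ : ℕ) (wt vt : Fin μ → ℤ)
    (M : (i j : Fin μ) → ModularForm 𝒮ℒ (wt i + vt j)) (σ : Equiv.Perm (Fin μ)) (τ : ℍ) :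
    detFormTerm μ wt vt M σ τ = ∏ i, M (σ i) i τ := by
  simp [detFormTerm, ModularForm.coe_prod]

/-- The determinant of a matrix of level-one modular forms (of weights `wt i + vt j`) is a
level-one modular form of weight `∑ wt + ∑ vt`. -/
theorem exists_modularForm_det (μ : ℕ) (wt vt : Fin μ → ℤ)
    (M : (i j : Fin μ) → ModularForm 𝒮ℒ (wt i + vt j)) :
    ∃ d : ModularForm 𝒮ℒ (∑ i, wt i + ∑ j, vt j),
      ∀ τ : ℍ, d τ = Matrix.det (Matrix.of fun i j => M i j τ) := by
  refine ⟨∑ σ : Equiv.Perm (Fin μ), ((Equiv.Perm.sign σ : ℤˣ) : ℤ) • detFormTerm μ wt vt M σ,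
    fun τ => ?_⟩
  rw [Matrix.det_apply]
  have : ∀ (s : Finset (Equiv.Perm (Fin μ))),
      (∑ σ ∈ s, ((Equiv.Perm.sign σ : ℤˣ) : ℤ) • detFormTerm μ wt vt M σ) τ =
        ∑ σ ∈ s, ((Equiv.Perm.sign σ : ℤˣ) : ℤ) • ∏ i, M (σ i) i τ := by
    intro s
    induction s using Finset.induction_on with
    | empty => simp
    | insert a s ha ih =>
      rw [Finset.sum_insert ha, Finset.sum_insert ha, ← ih, ← detFormTerm_apply]
      rfl
  rw [this]
  refine Finset.sum_congr rfl fun σ _ => ?_
  simp [Units.smul_def]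

/-- Function-valued variant of `exists_modularForm_det`: the entries are functions on `ℍ` which
are (coercions of) level-one modular forms of weights `wt i + vt j`. -/
theorem exists_modularForm_det_fun (μ : ℕ) (wt vt : Fin μ → ℤ) (M : Fin μ → Fin μ → ℍ → ℂ)
    (hM : ∀ i j, ∃ g : ModularForm 𝒮ℒ (wt i + vt j), ⇑g = M i j) :
    ∃ d : ModularForm 𝒮ℒ (∑ i, wt i + ∑ j, vt j),
      ∀ τ : ℍ, d τ = Matrix.det (Matrix.of fun i j => M i j τ) := by
  choose g hg using hM
  obtain ⟨d, hd⟩ := exists_modularForm_det μ wt vt g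
  refine ⟨d, fun τ => ?_⟩
  rw [hd τ]
  congr 1
  ext i j
  simp [hg i j]

end Fermat.Agent.S23
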