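import Mathlib

set_option autoImplicit false

namespace Fermat.Agent.S23

open Matrix in
/-- The power-sum (Hankel) matrix is `Vᵀ V` for the Vandermonde matrix `V`. -/
theorem powerSum_eq_transpose_mul_vandermonde (μ : ℕ) (x : Fin μ → ℂ) :
    (Matrix.of fun i j : Fin μ => ∑ c, x c ^ ((i:ℕ) + (j:ℕ))) =
      (Matrix.vandermonde x)ᵀ * Matrix.vandermonde x := by
  ext i j
  simp [Matrix.mul_apply, Matrix.vandermonde_apply, pow_add]

theorem det_powerSum_eq (μ : ℕ) (x : Fin μ → ℂ) :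
    (Matrix.of fun i j : Fin μ => ∑ c, x c ^ ((i:ℕ) + (j:ℕ))).det =
      (∏ i : Fin μ, ∏ j ∈ Finset.Ioi i, (x j - x i)) ^ 2 := by
  rw [powerSum_eq_transpose_mul_vandermonde, Matrix.det_mul, Matrix.det_transpose,
    Matrix.det_vandermonde, sq]

open Matrix in
theorem det_mul_eq_sum_cramer (μ : ℕ) (x y : Fin μ → ℂ) (c₀ : Fin μ) :
    let P : Matrix (Fin μ) (Fin μ) ℂ := fun i j => ∑ c, x c ^ ((i:ℕ) + (j:ℕ));
    let t : Fin μ → ℂ := fun i => ∑ c, y c * x c ^ (i:ℕ);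
    P.det * y c₀ = ∑ i : Fin μ, P.cramer t i * x c₀ ^ (i:ℕ) := by
  intro P t
  set V : Matrix (Fin μ) (Fin μ) ℂ := Matrix.vandermonde x with hV
  have hP : P = Vᵀ * V := by
    have := powerSum_eq_transpose_mul_vandermonde μ x
    rw [← hV] at this
    rw [← this]
    rfl
  have ht : t = Vᵀ *ᵥ y := by
    ext i
    simp [t, hV, Matrix.mulVec, dotProduct, Matrix.vandermonde_apply, mul_comm]
  -- `P *ᵥ (cramer P t) = det P • t`
  have h1 : P *ᵥ (P.cramer t) = P.det • t := Matrix.mulVec_cramer P t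
  -- so `Vᵀ *ᵥ (V *ᵥ cramer P t) = Vᵀ *ᵥ (det P • y)`
  have h2 : Vᵀ *ᵥ (V *ᵥ (P.cramer t)) = Vᵀ *ᵥ (P.det • y) := by
    rw [Matrix.mulVec_mulVec, ← hP, h1, ht, Matrix.mulVec_smul]
  have hgoal : (V *ᵥ (P.cramer t)) c₀ = ∑ i : Fin μ, P.cramer t i * x c₀ ^ (i:ℕ) := by
    simp [Matrix.mulVec, dotProduct, hV, Matrix.vandermonde_apply, mul_comm]
  rw [← hgoal]
  by_cases hdet : V.det = 0
  · -- then `det P = 0` and `cramer P t = 0`
    have hPdet : P.det = 0 := by
      rw [hP, Matrix.det_mul, Matrix.det_transpose, hdet, mul_zero]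
    have hcr : P.cramer t = 0 := by
      rw [hP, ht, Matrix.cramer_eq_adjugate_mulVec, Matrix.adjugate_mul_distrib,
        ← Matrix.mulVec_mulVec, Matrix.mulVec_mulVec y Vᵀ.adjugate Vᵀ,
        Matrix.adjugate_mul, Matrix.det_transpose, hdet, zero_smul, Matrix.zero_mulVec,
        Matrix.mulVec_zero]
    rw [hPdet, hcr]
    simp
  · have hinj : Function.Injective (Vᵀ.mulVec) := by
      apply Matrix.mulVec_injective_of_isUnit
      rw [Matrix.isUnit_iff_isUnit_det, Matrix.det_transpose]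
      exact isUnit_iff_ne_zero.mpr hdet
    have h3 := hinj h2
    rw [h3]
    simp
end Fermat.Agent.S23
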