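import Mathlib
import Fermat.Agent.S23.Basic
import Fermat.Agent.S23.VdmCramer
import Fermat.Agent.S23.DetForm

/-!
# S23 team library: L3, trace-form representation `f * b = ∑ a i * u ^ i` with level-one `a i`, `b`

OWNER: helper80 (only the owner edits this file).
-/

set_option autoImplicit false

namespace Fermat.Agent.S23

open UpperHalfPlane ModularForm SlashInvariantForm
open scoped MatrixGroups ModularForm Manifold

namespace TraceForm

/-- Slash of a product by an element of `𝒮ℒ` (determinant one). -/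
theorem mul_slash_of_mem {h : GL (Fin 2) ℝ} (hh : h ∈ 𝒮ℒ) (k1 k2 : ℤ) (F G : ℍ → ℂ) :
    (F * G) ∣[k1 + k2] h = (F ∣[k1] h) * (G ∣[k2] h) := by
  obtain ⟨γ, rfl⟩ := hh
  exact mul_slash_SL2 k1 k2 γ F G

/-- Slash of a power by an element of `𝒮ℒ`. -/
theorem pow_slash_of_mem {h : GL (Fin 2) ℝ} (hh : h ∈ 𝒮ℒ) (k : ℤ) (F : ℍ → ℂ) (n : ℕ) :
    (F ^ n) ∣[(n : ℤ) * k] h = (F ∣[k] h) ^ n := by
  induction n with
  | zero =>
    obtain ⟨γ, rfl⟩ := hh
    rw [pow_zero, Nat.cast_zero, zero_mul]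
    exact is_invariant_one' γ
  | succ n ih =>
    have : ((n + 1 : ℕ) : ℤ) * k = (n : ℤ) * k + k := by push_cast; ring
    rw [pow_succ, pow_succ, this, mul_slash_of_mem hh, ih]

/-- `Γ₀(N)` as a subgroup of `GL(2, ℝ)`. -/
abbrev G0 (N : ℕ) : Subgroup (GL (Fin 2) ℝ) :=
  ((CongruenceSubgroup.Gamma0 N : Subgroup SL(2, ℤ)) : Subgroup (GL (Fin 2) ℝ))

/-- The coset space `SL(2, ℤ) / Γ₀(N)`. -/
abbrev Q0 (N : ℕ) : Type := ↥𝒮ℒ ⧸ (G0 N).subgroupOf 𝒮ℒ

variable {N : ℕ} {k : ℤ}

theorem quotientFunc_pow (u : ModularForm (G0 N) 12) (n : ℕ) (q : Q0 N) :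
    quotientFunc (u.pow n) q = (quotientFunc u q) ^ n := by
  induction q using Quotient.inductionOn with
  | h r =>
    rw [quotientFunc_mk, quotientFunc_mk, coe_pow]
    exact pow_slash_of_mem (inv_mem r.2) 12 _ n

theorem quotientFunc_mul_pow (u : ModularForm (G0 N) 12) (f : CuspForm (G0 N) k) (n : ℕ) (q : Q0 N) :
    quotientFunc (f.mulModularForm (u.pow n)) q = quotientFunc f q * (quotientFunc u q) ^ n := by
  induction q using Quotient.inductionOn with
  | h r =>
    rw [quotientFunc_mk, quotientFunc_mk, quotientFunc_mk, CuspForm.coe_mulModularForm, coe_pow,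
      mul_slash_of_mem (inv_mem r.2), pow_slash_of_mem (inv_mem r.2)]

theorem mdifferentiable_quotientFunc (u : ModularForm (G0 N) 12) (q : Q0 N) :
    MDiff (quotientFunc u q) := by
  induction q using Quotient.inductionOn with
  | h r => exact (ModularForm.translate u (r : GL (Fin 2) ℝ)⁻¹).holo'

theorem quotientFunc_one (u : ModularForm (G0 N) 12) :
    quotientFunc u ((1 : ↥𝒮ℒ) : Q0 N) = u := by
  show quotientFunc u ⟦1⟧ = u
  rw [quotientFunc_mk]
  simp

theorem quotientFunc_one_cusp (f : CuspForm (G0 N) k) :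
    quotientFunc f ((1 : ↥𝒮ℒ) : Q0 N) = f := by
  show quotientFunc f ⟦1⟧ = f
  rw [quotientFunc_mk]
  simp


theorem quotientFunc_injective (u : ModularForm (G0 N) 12)
    (hu : ∀ γ : SL(2, ℤ), (u : ℍ → ℂ) ∣[(12 : ℤ)] (Matrix.SpecialLinearGroup.mapGL ℝ γ) = u →
      γ ∈ CongruenceSubgroup.Gamma0 N) :
    Function.Injective (fun q : Q0 N => quotientFunc u q) := by
  intro q q' h
  induction q using Quotient.inductionOn with
  | h r =>
  induction q' using Quotient.inductionOn with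
  | h r' =>
    simp only [quotientFunc_mk] at h
    have h2 : (u : ℍ → ℂ) ∣[(12 : ℤ)] ((r : GL (Fin 2) ℝ)⁻¹ * r') = u := by
      have h3 := congrArg (fun F : ℍ → ℂ => F ∣[(12 : ℤ)] (r' : GL (Fin 2) ℝ)) h
      simp only [← SlashAction.slash_mul] at h3
      rw [inv_mul_cancel, SlashAction.slash_one] at h3
      exact h3
    obtain ⟨γ, hγ⟩ : ((r : GL (Fin 2) ℝ)⁻¹ * r') ∈ 𝒮ℒ := mul_mem (inv_mem r.2) r'.2
    rw [← hγ] at h2
    have hγ0 := hu γ h2
    show (QuotientGroup.mk r : Q0 N) = QuotientGroup.mk r'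
    rw [QuotientGroup.eq, Subgroup.mem_subgroupOf]
    exact ⟨γ, hγ0, by rw [hγ]; simp⟩

section Finite

variable [NeZero N]

/-- The (noncomputable) `Fintype` structure on the finite coset space. -/
@[reducible] noncomputable def fintypeQ0 : Fintype (Q0 N) := Fintype.ofFinite _

attribute [local instance] fintypeQ0

theorem exists_form_powerSum (u : ModularForm (G0 N) 12) (n : ℕ) :
    ∃ g : ModularForm 𝒮ℒ ((n : ℤ) * 12), (g : ℍ → ℂ) = ∑ q : Q0 N, (quotientFunc u q) ^ n := by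
  refine ⟨ModularForm.trace 𝒮ℒ (u.pow n), ?_⟩
  rw [ModularForm.coe_trace]
  exact Finset.sum_congr rfl fun q _ => quotientFunc_pow u n q

theorem exists_form_mixedSum (u : ModularForm (G0 N) 12) (f : CuspForm (G0 N) k) (n : ℕ) :
    ∃ g : ModularForm 𝒮ℒ (k + (n : ℤ) * 12),
      (g : ℍ → ℂ) = ∑ q : Q0 N, quotientFunc f q * (quotientFunc u q) ^ n := by
  refine ⟨ModularForm.trace 𝒮ℒ (f.mulModularForm (u.pow n)), ?_⟩
  rw [ModularForm.coe_trace]
  exact Finset.sum_congr rfl fun q _ => quotientFunc_mul_pow u f n q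

end Finite

end TraceForm

attribute [local instance] TraceForm.fintypeQ0 in
open TraceForm in
theorem exists_trace_representation (N : ℕ) [NeZero N] (k : ℤ)
    (u : ModularForm (CongruenceSubgroup.Gamma0 N) 12)
    (hu : ∀ γ : SL(2, ℤ), (u : ℍ → ℂ) ∣[(12 : ℤ)] (Matrix.SpecialLinearGroup.mapGL ℝ γ) = u →
      γ ∈ CongruenceSubgroup.Gamma0 N)
    (f : CuspForm (CongruenceSubgroup.Gamma0 N) k) :
    ∃ (μ : ℕ) (w : ℤ) (b : ModularForm 𝒮ℒ w)
      (a : (i : Fin μ) → ModularForm 𝒮ℒ (w + k - 12 * (i : ℕ))),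
      b ≠ 0 ∧ ∀ τ : ℍ, f τ * b τ = ∑ i : Fin μ, a i τ * u τ ^ (i : ℕ) := by
  classical
  -- reindex the cosets by `Fin μ`
  obtain ⟨μ, hμ⟩ : ∃ μ, μ = Fintype.card (Q0 N) := ⟨_, rfl⟩
  let e : Q0 N ≃ Fin μ := (Fintype.equivFin (Q0 N)).trans (finCongr hμ.symm)
  let x : Fin μ → ℍ → ℂ := fun c => quotientFunc u (e.symm c)
  let y : Fin μ → ℍ → ℂ := fun c => quotientFunc f (e.symm c)
  let c₀ : Fin μ := e ((1 : ↥𝒮ℒ) : Q0 N)
  have hx0 : x c₀ = u := by
    show quotientFunc u (e.symm (e _)) = u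
    rw [Equiv.symm_apply_apply]
    exact quotientFunc_one u
  have hy0 : y c₀ = f := by
    show quotientFunc f (e.symm (e _)) = f
    rw [Equiv.symm_apply_apply]
    exact quotientFunc_one_cusp f
  have hxinj : Function.Injective x := fun c c' h =>
    e.symm.injective (quotientFunc_injective u hu h)
  have hxdiff : ∀ c, MDiff (x c) := fun c => mdifferentiable_quotientFunc u _
  -- the power sums, as functions
  let P : Fin μ → Fin μ → ℍ → ℂ := fun i j => ∑ c, x c ^ ((i : ℕ) + (j : ℕ))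
  let t : Fin μ → ℍ → ℂ := fun i => ∑ c, y c * x c ^ (i : ℕ)
  let wt : Fin μ → ℤ := fun i => 12 * ((i : ℕ) : ℤ)
  have hP : ∀ i j, ∃ g : ModularForm 𝒮ℒ (wt i + wt j), ⇑g = P i j := by
    intro i j
    obtain ⟨g, hg⟩ := exists_form_powerSum u ((i : ℕ) + (j : ℕ))
    refine ⟨ModularForm.mcast (by simp only [wt]; push_cast; ring) g, ?_⟩
    rw [ModularForm.coe_mcast, hg]
    exact (Equiv.sum_comp e.symm (fun q => quotientFunc u q ^ ((i : ℕ) + (j : ℕ)))).symm
  have ht : ∀ i, ∃ g : ModularForm 𝒮ℒ (wt i + k), ⇑g = t i := by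
    intro i
    obtain ⟨g, hg⟩ := exists_form_mixedSum u f (i : ℕ)
    refine ⟨ModularForm.mcast (by simp only [wt]; ring) g, ?_⟩
    rw [ModularForm.coe_mcast, hg]
    exact (Equiv.sum_comp e.symm
      (fun q => quotientFunc f q * quotientFunc u q ^ (i : ℕ))).symm
  -- the determinant `b`
  obtain ⟨b, hb⟩ := exists_modularForm_det_fun μ wt wt P hP
  -- the Cramer determinants `a i`
  have ha : ∀ i : Fin μ, ∃ a : ModularForm 𝒮ℒ ((∑ i, wt i + ∑ j, wt j) + k - 12 * (i : ℕ)),
      ∀ τ, a τ = Matrix.cramer (Matrix.of fun i j => P i j τ) (fun j => t j τ) i := by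
    intro i
    have hM : ∀ j l, ∃ g : ModularForm 𝒮ℒ (wt j + Function.update wt i k l),
        ⇑g = (fun j l => if l = i then t j else P j l) j l := by
      intro j l
      by_cases hl : l = i
      · subst hl
        obtain ⟨g, hg⟩ := ht j
        exact ⟨ModularForm.mcast (by rw [Function.update_self]) g, by
          rw [ModularForm.coe_mcast, hg]; simp⟩
      · obtain ⟨g, hg⟩ := hP j l
        exact ⟨ModularForm.mcast (by rw [Function.update_of_ne hl]) g, by
          rw [ModularForm.coe_mcast, hg]; simp [hl]⟩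
    obtain ⟨d, hd⟩ := exists_modularForm_det_fun μ wt (Function.update wt i k)
      (fun j l => if l = i then t j else P j l) hM
    have hw : ∑ j, wt j + ∑ l, Function.update wt i k l =
        (∑ i, wt i + ∑ j, wt j) + k - 12 * (i : ℕ) := by
      rw [Finset.sum_update_of_mem (Finset.mem_univ i),
        Finset.sum_eq_add_sum_sdiff_singleton_of_mem (Finset.mem_univ i) wt]
      simp only [wt]
      ring
    refine ⟨ModularForm.mcast hw d, fun τ => ?_⟩
    rw [ModularForm.mcast_apply, hd τ, Matrix.cramer_apply]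
    congr 1
    ext j l
    simp only [Matrix.of_apply, Matrix.updateCol_apply]
    split_ifs <;> rfl
  choose a ha using ha
  refine ⟨μ, ∑ i, wt i + ∑ j, wt j, b, a, ?_, ?_⟩
  · -- `b ≠ 0`
    intro hb0
    have h1 : ∀ τ, (∏ i : Fin μ, ∏ j ∈ Finset.Ioi i, (x j τ - x i τ)) = 0 := by
      intro τ
      have h2 := hb τ
      rw [hb0] at h2
      have h3 := det_powerSum_eq μ (fun c => x c τ)
      have h4 : (Matrix.of fun i j => P i j τ) =
          (Matrix.of fun i j : Fin μ => ∑ c, (fun c => x c τ) c ^ ((i : ℕ) + (j : ℕ))) := by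
        ext i j
        simp [P, Finset.sum_apply]
      rw [h4, h3] at h2
      have h5 : (0 : ℂ) = _ := h2
      exact pow_eq_zero_iff (two_ne_zero) |>.mp h5.symm
    have h2 : (∏ i : Fin μ, ∏ j ∈ Finset.Ioi i, (x j - x i)) = 0 := by
      ext τ
      simpa [Finset.prod_apply] using h1 τ
    rw [UpperHalfPlane.prod_eq_zero_iff (fun i _ =>
      MDifferentiable.prod fun j _ => (hxdiff j).sub (hxdiff i))] at h2
    obtain ⟨i, -, hi⟩ := h2
    rw [UpperHalfPlane.prod_eq_zero_iff (fun j _ => (hxdiff j).sub (hxdiff i))] at hi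
    obtain ⟨j, hj, hji⟩ := hi
    have := hxinj (sub_eq_zero.mp hji)
    rw [Finset.mem_Ioi] at hj
    exact absurd this (ne_of_gt hj)
  · intro τ
    have h1 := det_mul_eq_sum_cramer μ (fun c => x c τ) (fun c => y c τ) c₀
    simp only at h1
    have hPτ : (Matrix.of fun i j => P i j τ) =
        (fun i j : Fin μ => ∑ c, x c τ ^ ((i : ℕ) + (j : ℕ)) : Matrix (Fin μ) (Fin μ) ℂ) := by
      ext i j
      simp [P, Finset.sum_apply]
    have htτ : (fun j => t j τ) = (fun i : Fin μ => ∑ c, y c τ * x c τ ^ (i : ℕ)) := by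
      ext i
      simp [t, Finset.sum_apply]
    have hx0τ : x c₀ τ = u τ := congrFun hx0 τ
    have hy0τ : y c₀ τ = f τ := congrFun hy0 τ
    rw [hx0τ, hy0τ] at h1
    rw [mul_comm, hb τ, hPτ, h1]
    refine Finset.sum_congr rfl fun i _ => ?_
    rw [ha i τ, hPτ, htτ]

end Fermat.Agent.S23
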