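import Mathlib
import Fermat.Agent.S23.Basic
import Fermat.Agent.S23.LevelOne
import Fermat.Agent.S23.LevelN
import Fermat.Agent.S23.Distinct
import Fermat.Agent.S23.TraceForm
import Fermat.Agent.S23.Integrality
import Fermat.Agent.S23.Converse
import Fermat.Agent.S23.Descent
import Fermat.Agent.S23.BddDenom
import Fermat.Prelude.Thm_CongruenceSubgroup_one_mem_strictPeriods_Gamma0
import Fermat.Prelude.Thm_ModularForm_sturm_bound_Gamma0
import Fermat.Prelude.Thm_CuspForm_intLattice_fg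

/-!
# S23 team library: main theorem (assembly of L1..L7)

OWNER: helper83 (only the owner edits this file).
-/

set_option autoImplicit false

namespace Fermat.Agent.S23

open UpperHalfPlane ModularForm
open scoped MatrixGroups ModularForm Manifold

namespace MainAux

/-- Modular forms with strict period `1` are nice functions. -/
theorem coe_mem_niceSub {Γ : Subgroup (GL (Fin 2) ℝ)} {k : ℤ} {F : Type*} [FunLike F ℍ ℂ]
    [ModularFormClass F Γ k] (hΓ : (1 : ℝ) ∈ Γ.strictPeriods) (f : F) :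
    (f : ℍ → ℂ) ∈ niceSub := by
  have : Fact (IsCusp OnePoint.infty Γ) := ⟨Γ.isCusp_of_mem_strictPeriods one_pos hΓ⟩
  exact ⟨SlashInvariantFormClass.periodic_comp_ofComplex f hΓ, ModularFormClass.holo f,
    ModularFormClass.bdd_at_infty f⟩

/-- A level `Γ₀(N)` cusp form as a nice function. -/
noncomputable def nN {N : ℕ} {k : ℤ} (f : CuspForm (CongruenceSubgroup.Gamma0 N) k) : niceSub :=
  ⟨f, coe_mem_niceSub (CongruenceSubgroup.one_mem_strictPeriods_Gamma0 N) f⟩

/-- A level `Γ₀(N)` modular form as a nice function. -/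
noncomputable def nM {N : ℕ} {k : ℤ} (f : ModularForm (CongruenceSubgroup.Gamma0 N) k) :
    niceSub :=
  ⟨f, coe_mem_niceSub (CongruenceSubgroup.one_mem_strictPeriods_Gamma0 N) f⟩

/-- A level one modular form as a nice function. -/
noncomputable def n1 {k : ℤ} (f : ModularForm 𝒮ℒ k) : niceSub :=
  ⟨f, coe_mem_niceSub one_mem_strictPeriods_SL f⟩

/-- A level one cusp form as a nice function. -/
noncomputable def c1 {k : ℤ} (f : CuspForm 𝒮ℒ k) : niceSub :=
  ⟨f, coe_mem_niceSub one_mem_strictPeriods_SL f⟩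

@[simp] theorem qHom_nN {N : ℕ} {k : ℤ} (f : CuspForm (CongruenceSubgroup.Gamma0 N) k) :
    qHom (nN f) = qExpansion 1 f := rfl

@[simp] theorem qHom_nM {N : ℕ} {k : ℤ} (f : ModularForm (CongruenceSubgroup.Gamma0 N) k) :
    qHom (nM f) = qExpansion 1 f := rfl

@[simp] theorem qHom_n1 {k : ℤ} (f : ModularForm 𝒮ℒ k) : qHom (n1 f) = qExpansion 1 f := rfl

@[simp] theorem qHom_c1 {k : ℤ} (f : CuspForm 𝒮ℒ k) : qHom (c1 f) = qExpansion 1 f := rfl

theorem niceSub_ext {F G : niceSub} (h : ∀ τ : ℍ, (F : ℍ → ℂ) τ = (G : ℍ → ℂ) τ) : F = G :=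
  Subtype.ext (funext h)

/-- The power series identity obtained from the trace representation. -/
theorem rel1 {N : ℕ} {k : ℤ} (f : CuspForm (CongruenceSubgroup.Gamma0 N) k)
    (u : ModularForm (CongruenceSubgroup.Gamma0 N) 12) {μ : ℕ} {w : ℤ} (b : ModularForm 𝒮ℒ w)
    (a : (i : Fin μ) → ModularForm 𝒮ℒ (w + k - 12 * (i : ℕ)))
    (h1 : ∀ τ : ℍ, f τ * b τ = ∑ i : Fin μ, a i τ * u τ ^ (i : ℕ)) :
    nN f * n1 b = ∑ i : Fin μ, n1 (a i) * nM u ^ (i : ℕ) := by
  apply niceSub_ext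
  intro τ
  have : ((∑ i : Fin μ, n1 (a i) * nM u ^ (i : ℕ) : niceSub) : ℍ → ℂ) τ
      = ∑ i : Fin μ, a i τ * u τ ^ (i : ℕ) := by
    simp [nM, n1, Finset.sum_apply]
  rw [this, ← h1 τ]
  rfl

/-- The power series identity obtained from the integrality relation. -/
theorem rel2 {N : ℕ} {k : ℤ} (f : CuspForm (CongruenceSubgroup.Gamma0 N) k) {ν : ℕ}
    (e : (m : Fin ν) → CuspForm 𝒮ℒ (k * ((m : ℕ) + 1)))
    (h2 : ∀ τ : ℍ, f τ ^ ν + ∑ m : Fin ν, e m τ * f τ ^ (ν - 1 - (m : ℕ)) = 0) :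
    nN f ^ ν + ∑ m : Fin ν, c1 (e m) * nN f ^ (ν - 1 - (m : ℕ)) = 0 := by
  apply niceSub_ext
  intro τ
  have : ((nN f ^ ν + ∑ m : Fin ν, c1 (e m) * nN f ^ (ν - 1 - (m : ℕ)) : niceSub) : ℍ → ℂ) τ
      = f τ ^ ν + ∑ m : Fin ν, e m τ * f τ ^ (ν - 1 - (m : ℕ)) := by
    simp [nN, c1, Finset.sum_apply]
  rw [this, h2 τ]
  rfl

/-- Combination of the two relations: the relation satisfied by `A = f * b`. -/
theorem rel3 {R : Type*} [CommRing R] (F B A : R) {ν : ℕ} (E : Fin ν → R) (hA : F * B = A)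
    (h2 : F ^ ν + ∑ m : Fin ν, E m * F ^ (ν - 1 - (m : ℕ)) = 0) :
    A ^ ν + ∑ m : Fin ν, E m * A ^ (ν - 1 - (m : ℕ)) * B ^ ((m : ℕ) + 1) = 0 := by
  have key : A ^ ν + ∑ m : Fin ν, E m * A ^ (ν - 1 - (m : ℕ)) * B ^ ((m : ℕ) + 1)
      = B ^ ν * (F ^ ν + ∑ m : Fin ν, E m * F ^ (ν - 1 - (m : ℕ))) := by
    rw [mul_add, Finset.mul_sum, ← hA, mul_pow]
    congr 1
    · ring
    · refine Finset.sum_congr rfl fun m _ => ?_
      have hB : B ^ ν = B ^ (ν - 1 - (m : ℕ)) * B ^ ((m : ℕ) + 1) := by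
        rw [← pow_add]
        congr 1
        have := m.2
        omega
      rw [mul_pow, hB]
      ring
  rw [key, h2, mul_zero]

end MainAux

open MainAux

/-- The coefficientwise conjugate of a cusp form on `Γ₀(N)` by a ring endomorphism of `ℂ`
is again a cusp form on `Γ₀(N)`. -/
theorem exists_conj (N : ℕ) [NeZero N] (k : ℤ) (f : CuspForm (CongruenceSubgroup.Gamma0 N) k)
    (σ : ℂ →+* ℂ) :
    ∃ g : CuspForm (CongruenceSubgroup.Gamma0 N) k,
      qExpansion 1 g = PowerSeries.map σ (qExpansion 1 f) := by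
  have hu : ∀ γ : SL(2, ℤ),
      (uN N : ℍ → ℂ) ∣[(12 : ℤ)] (Matrix.SpecialLinearGroup.mapGL ℝ γ) = uN N →
      γ ∈ CongruenceSubgroup.Gamma0 N := by
    intro γ hγ
    rw [coe_uN] at hγ
    exact mem_Gamma0_of_slash_uFun_eq N γ hγ
  obtain ⟨μ, w, b, a, hb, h1⟩ := exists_trace_representation N k (uN N) hu f
  obtain ⟨ν, e, h2⟩ := exists_integrality_relation N k f
  obtain ⟨b', hb'⟩ := levelOne_exists_conj w b σ
  choose a' ha' using fun i : Fin μ => levelOne_exists_conj _ (a i) σ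
  choose e' he' using fun m : Fin ν => levelOne_cusp_exists_conj _ (e m) σ
  have hU : PowerSeries.map σ (qExpansion 1 (uN N)) = qExpansion 1 (uN N) :=
    (isRatBdd_qExpansion_uN N isRatBdd_qExpansion_discriminant).map_eq σ
  have hσinj : Function.Injective (PowerSeries.map σ) := by
    intro P Q hPQ
    ext n
    have := congrArg (PowerSeries.coeff n) hPQ
    simp only [PowerSeries.coeff_map] at this
    exact σ.injective this
  -- the relations among q-expansions
  have r1 := rel1 f (uN N) b a h1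
  have r2 := rel2 f e h2
  have r3 := rel3 (nN f) (n1 b) (∑ i : Fin μ, n1 (a i) * nM (uN N) ^ (i : ℕ)) (fun m => c1 (e m))
    r1 r2
  -- conjugated data
  let Φ : niceSub →+* PowerSeries ℂ := (PowerSeries.map σ).comp (qHom : niceSub →+* PowerSeries ℂ)
  have hΦa : ∀ i : Fin μ, Φ (n1 (a i)) = qHom (n1 (a' i)) := fun i => (ha' i).symm
  have hΦu : Φ (nM (uN N)) = qHom (nM (uN N)) := hU
  have hΦe : ∀ m : Fin ν, Φ (c1 (e m)) = qHom (c1 (e' m)) := fun m => (he' m).symm
  have hΦb : Φ (n1 b) = qHom (n1 b') := hb'.symm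
  have hA' : qHom (∑ i : Fin μ, n1 (a' i) * nM (uN N) ^ (i : ℕ))
      = Φ (∑ i : Fin μ, n1 (a i) * nM (uN N) ^ (i : ℕ)) := by
    simp only [map_sum, map_mul, map_pow, hΦa, hΦu]
  have hb'0 : b' ≠ 0 := by
    intro h0
    apply hb
    have hq : qExpansion 1 b = 0 := by
      apply hσinj
      rw [← hb', h0]
      simp [qExpansion_zero]
    exact (ModularForm.qExpansion_eq_zero_iff one_pos one_mem_strictPeriods_SL b).mp hq
  have r3' : (∑ i : Fin μ, n1 (a' i) * nM (uN N) ^ (i : ℕ)) ^ ν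
      + ∑ m : Fin ν, c1 (e' m) * (∑ i : Fin μ, n1 (a' i) * nM (uN N) ^ (i : ℕ)) ^ (ν - 1 - (m : ℕ))
          * n1 b' ^ ((m : ℕ) + 1) = 0 := by
    apply qHom_injective
    have := congrArg Φ r3
    rw [map_zero] at this
    rw [map_zero, ← this]
    simp only [map_add, map_sum, map_mul, map_pow, hΦa, hΦu, hΦe, hΦb]
  have h' : ∀ τ : ℍ, (∑ i : Fin μ, a' i τ * uN N τ ^ (i : ℕ)) ^ ν
        + ∑ m : Fin ν, e' m τ * (∑ i : Fin μ, a' i τ * uN N τ ^ (i : ℕ)) ^ (ν - 1 - (m : ℕ))
            * b' τ ^ ((m : ℕ) + 1) = 0 := by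
    intro τ
    have := congrArg (fun F : niceSub => (F : ℍ → ℂ) τ) r3'
    simpa [nM, n1, c1, Finset.sum_apply] using this
  obtain ⟨g, hg⟩ := exists_cuspForm_of_relation N k (uN N) μ ν w b' hb'0 a' e' h'
  refine ⟨g, ?_⟩
  have r1' := rel1 g (uN N) b' a' hg
  have e1 : qHom (nN g) * qHom (n1 b')
      = PowerSeries.map σ (qHom (nN f)) * qHom (n1 b') := by
    rw [← map_mul, r1', hA', ← r1, ← hΦb]
    simp only [Φ, RingHom.comp_apply, map_mul]
    rfl
  have hb'q : qHom (n1 b') ≠ 0 := by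
    rw [qHom_n1]
    intro h0
    exact hb'0 ((ModularForm.qExpansion_eq_zero_iff one_pos one_mem_strictPeriods_SL b').mp h0)
  exact mul_right_cancel₀ hb'q e1

namespace MainAux

/-- The q-expansion as a linear map on cusp forms of level `Γ₀(N)`. -/
noncomputable def Qlin (N : ℕ) (k : ℤ) :
    CuspForm (CongruenceSubgroup.Gamma0 N) k →ₗ[ℂ] PowerSeries ℂ where
  toFun f := qExpansion 1 f
  map_add' f g := by
    rw [FunLike.coe_add]
    exact ModularForm.qExpansion_add one_pos (CongruenceSubgroup.one_mem_strictPeriods_Gamma0 N) f g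
  map_smul' c f := by
    rw [FunLike.coe_smul]
    exact ModularForm.qExpansion_smul one_pos (CongruenceSubgroup.one_mem_strictPeriods_Gamma0 N)
      c f

@[simp] theorem Qlin_apply {N : ℕ} {k : ℤ} (f : CuspForm (CongruenceSubgroup.Gamma0 N) k) :
    Qlin N k f = qExpansion 1 f := rfl

theorem Qlin_injective (N : ℕ) (k : ℤ) : Function.Injective (Qlin N k) := by
  intro f g hfg
  have h : qHom (nN f) = qHom (nN g) := hfg
  have := qHom_injective h
  exact DFunLike.coe_injective (congrArg Subtype.val this)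

/-- Truncation of the q-expansion at the Sturm bound. -/
noncomputable def truncS (N : ℕ) (k : ℤ) (B : ℕ) :
    CuspForm (CongruenceSubgroup.Gamma0 N) k →ₗ[ℂ] (Fin (B + 1) → ℂ) where
  toFun f i := PowerSeries.coeff (i : ℕ) (Qlin N k f)
  map_add' f g := by
    funext i
    simp [map_add]
  map_smul' c f := by
    funext i
    simp [map_smul]

theorem truncS_injective (N : ℕ) [NeZero N] (k : ℤ) :
    Function.Injective
      (truncS N k ((k * (CongruenceSubgroup.Gamma0 N).index).toNat / 12)) := by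
  refine (injective_iff_map_eq_zero _).mpr fun f hf => ?_
  have hmf : (ModularFormClass.modularForm f :
      ModularForm (CongruenceSubgroup.Gamma0 N) k) = 0 := by
    refine ModularForm.sturm_bound_Gamma0 N _ fun n hn => ?_
    have := congrFun hf ⟨n, Nat.lt_succ_of_le hn⟩
    simpa [truncS] using this
  have hcoe : (⇑f : ℍ → ℂ) = 0 := by
    have := congrArg (fun F : ModularForm (CongruenceSubgroup.Gamma0 N) k => (⇑F : ℍ → ℂ)) hmf
    simpa using this
  exact DFunLike.coe_injective (hcoe.trans (FunLike.coe_zero).symm)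

theorem finite_cuspForm (N : ℕ) [NeZero N] (k : ℤ) :
    Module.Finite ℂ (CuspForm (CongruenceSubgroup.Gamma0 N) k) :=
  Module.Finite.of_injective _ (truncS_injective N k)

/-- A cusp form on `Γ₀(N)` with rational q-expansion has bounded denominators. -/
theorem isRatBdd_of_rational (N : ℕ) [NeZero N] (k : ℤ)
    (f : CuspForm (CongruenceSubgroup.Gamma0 N) k)
    (hf : ∀ n, PowerSeries.coeff n (qExpansion 1 f) ∈ Set.range ((↑) : ℚ → ℂ)) :
    IsRatBdd (qExpansion 1 f) := by
  have hu : ∀ γ : SL(2, ℤ),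
      (uN N : ℍ → ℂ) ∣[(12 : ℤ)] (Matrix.SpecialLinearGroup.mapGL ℝ γ) = uN N →
      γ ∈ CongruenceSubgroup.Gamma0 N := by
    intro γ hγ
    rw [coe_uN] at hγ
    exact mem_Gamma0_of_slash_uFun_eq N γ hγ
  obtain ⟨μ, w, b, a, hb, h1⟩ := exists_trace_representation N k (uN N) hu f
  obtain ⟨ν, e, h2⟩ := exists_integrality_relation N k f
  have r1 := congrArg qHom (rel1 f (uN N) b a h1)
  have r2 := congrArg qHom (rel2 f e h2)
  simp only [map_add, map_sum, map_mul, map_pow, map_zero, qHom_nN, qHom_n1, qHom_nM,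
    qHom_c1] at r1 r2
  refine isRatBdd_of_relations (qExpansion 1 f) (qExpansion 1 (uN N)) hf
    (isRatBdd_qExpansion_uN N isRatBdd_qExpansion_discriminant) μ ν (qExpansion 1 b)
    (fun i => qExpansion 1 (a i)) (fun m => qExpansion 1 (e m)) ?_
    (levelOne_qExpansion_mem_span w b) (fun i => levelOne_qExpansion_mem_span _ (a i))
    (fun m => ?_) r1 r2
  · intro h0
    exact hb ((ModularForm.qExpansion_eq_zero_iff one_pos one_mem_strictPeriods_SL b).mp h0)
  · exact levelOne_qExpansion_mem_span _ (ModularFormClass.modularForm (e m))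

/-- A cusp form on `Γ₀(N)` with rational q-expansion lies in the `ℂ`-span of the integral
lattice. -/
theorem mem_span_intLattice_of_rational (N : ℕ) [NeZero N] (k : ℤ)
    (f : CuspForm (CongruenceSubgroup.Gamma0 N) k)
    (hf : ∀ n, PowerSeries.coeff n (qExpansion 1 f) ∈ Set.range ((↑) : ℚ → ℂ)) :
    f ∈ Submodule.span ℂ ((CuspForm.intLattice N k :
      Submodule ℤ (CuspForm (CongruenceSubgroup.Gamma0 N) k)) :
        Set (CuspForm (CongruenceSubgroup.Gamma0 N) k)) := by
  obtain ⟨D, hD, hDf⟩ := isRatBdd_of_rational N k f hf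
  have hD' : (D : ℂ) ≠ 0 := by exact_mod_cast hD
  have hmem : (D : ℂ) • f ∈ CuspForm.intLattice N k := by
    apply Submodule.subset_span
    intro n
    rw [mem_intPS_iff] at hDf
    obtain ⟨m, hm⟩ := hDf n
    refine ⟨m, ?_⟩
    rw [← hm]
    show PowerSeries.coeff n (Qlin N k ((D : ℂ) • f)) = _
    rw [map_smul]
    rfl
  have : f = (D : ℂ)⁻¹ • ((D : ℂ) • f) := by
    rw [smul_smul, inv_mul_cancel₀ hD', one_smul]
  rw [this]
  exact Submodule.smul_mem _ _ (Submodule.subset_span hmem)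

end MainAux

/-- Cusp forms of every weight on `Γ₀(N)` are spanned by forms with integral q-expansion. -/
theorem hasIntegralStructure (N : ℕ) [NeZero N] (k : ℤ) : CuspForm.HasIntegralStructure N k := by
  unfold CuspForm.HasIntegralStructure
  rw [eq_top_iff]
  intro f _
  have hfin : Module.Finite ℂ (CuspForm (CongruenceSubgroup.Gamma0 N) k) := finite_cuspForm N k
  let W : Submodule ℂ (PowerSeries ℂ) := LinearMap.range (Qlin N k)
  have hWfin : FiniteDimensional ℂ W := by
    show FiniteDimensional ℂ (LinearMap.range (Qlin N k))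
    infer_instance
  have hW : ∀ σ : ℂ →+* ℂ, ∀ w ∈ W, PowerSeries.map σ w ∈ W := by
    rintro σ _ ⟨g, rfl⟩
    obtain ⟨g', hg'⟩ := exists_conj N k g σ
    exact ⟨g', hg'⟩
  have hdesc := descent W hW
  have hle : Submodule.span ℂ
      {w | w ∈ W ∧ ∀ n, PowerSeries.coeff n w ∈ Set.range ((↑) : ℚ → ℂ)}
      ≤ (Submodule.span ℂ ((CuspForm.intLattice N k :
          Submodule ℤ (CuspForm (CongruenceSubgroup.Gamma0 N) k)) :
            Set (CuspForm (CongruenceSubgroup.Gamma0 N) k))).map (Qlin N k) := by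
    rw [Submodule.span_le]
    rintro w ⟨⟨g, rfl⟩, hrat⟩
    exact ⟨g, mem_span_intLattice_of_rational N k g hrat, rfl⟩
  obtain ⟨f', hf'mem, hf'⟩ := hle (hdesc ⟨f, rfl⟩)
  rw [← Qlin_injective N k hf']
  exact hf'mem

end Fermat.Agent.S23
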