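import Mathlib
import Fermat.Prelude.Def_CuspForm_HeckeAlgebra
import Fermat.Prelude.Def_CuspForm_IntegralStructure
import Fermat.Prelude.Thm_CuspForm_intLattice_fg
import Fermat.Prelude.Thm_CuspForm_mem_intLattice_of_mem_heckeAlgebra
import Fermat.Prelude.Thm_ModularForm_sturm_bound_Gamma0
import Fermat.Prelude.Thm_CongruenceSubgroup_one_mem_strictPeriods_Gamma0

/-!
# S23 team library: from the integral structure to finiteness of the Hecke algebra (S22 wiring)

OWNER: helper24 (only the owner edits this file).

* `finite_adjoin_of_stable_lattice`: a `ℤ`-algebra of endomorphisms of a complex vector space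
  generated by endomorphisms preserving a finitely generated `ℤ`-lattice which spans the space
  is a finitely generated `ℤ`-module.
* `heckeAlgebra_finite_of_hasIntegralStructure`: the Hecke algebra of weight `k` and level `N`
  is a finite `ℤ`-module as soon as the cusp forms of weight `k` have an integral structure.
-/

set_option autoImplicit false

namespace Fermat.Agent.S23

open UpperHalfPlane ModularForm

namespace HeckeFinite

/-- If a finitely generated `ℤ`-submodule `L` of a `ℂ`-vector space `V` spans `V` over `ℂ` and
is stable under a set `gens` of endomorphisms, then the `ℤ`-algebra generated by `gens` is a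
finitely generated `ℤ`-module. -/
theorem finite_adjoin_of_stable_lattice {V : Type*} [AddCommGroup V] [Module ℂ V]
    (L : Submodule ℤ V) (hfg : L.FG)
    (hspan : Submodule.span ℂ (L : Set V) = ⊤)
    (gens : Set (Module.End ℂ V))
    (hstab : ∀ T ∈ gens, ∀ v ∈ L, T v ∈ L) :
    Module.Finite ℤ (Algebra.adjoin ℤ gens) := by
  -- stability under the whole adjoined algebra
  have hstab' : ∀ t ∈ Algebra.adjoin ℤ gens, ∀ v ∈ L, t v ∈ L := by
    intro t ht
    induction ht using Algebra.adjoin_induction with
    | mem x hx => exact hstab x hx
    | algebraMap r =>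
      intro v hv
      have : (algebraMap ℤ (Module.End ℂ V) r) v = r • v := by
        simp
      rw [this]
      exact L.smul_mem r hv
    | add x y _ _ hx hy =>
      intro v hv
      rw [LinearMap.add_apply]
      exact L.add_mem (hx v hv) (hy v hv)
    | mul x y _ _ hx hy =>
      intro v hv
      rw [Module.End.mul_apply]
      exact hx _ (hy v hv)
  have : Module.Finite ℤ L := Module.Finite.iff_fg.mpr hfg
  have : IsNoetherian ℤ (L →ₗ[ℤ] L) := by
    have : IsNoetherian ℤ L := isNoetherian_of_isNoetherianRing_of_finite ℤ L
    obtain ⟨n, s, hs⟩ := Module.Finite.exists_fin (R := ℤ) (M := L)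
    let ev : (L →ₗ[ℤ] L) →ₗ[ℤ] (Fin n → L) :=
      { toFun := fun f i => f (s i)
        map_add' := fun f g => rfl
        map_smul' := fun c f => rfl }
    refine isNoetherian_of_injective ev ?_
    intro f g hfg'
    apply LinearMap.ext_on_range hs
    intro i
    exact congrFun hfg' i
  -- the restriction map
  let Θ : (Algebra.adjoin ℤ gens) →ₗ[ℤ] (L →ₗ[ℤ] L) :=
    { toFun := fun t =>
        { toFun := fun v => ⟨(t : Module.End ℂ V) (v : V), hstab' t t.2 v v.2⟩
          map_add' := fun v w => by
            apply Subtype.ext
            simp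
          map_smul' := fun c v => by
            apply Subtype.ext
            simp }
      map_add' := fun s t => by
        apply LinearMap.ext
        intro v
        apply Subtype.ext
        simp
      map_smul' := fun c t => by
        apply LinearMap.ext
        intro v
        apply Subtype.ext
        simp }
  refine Module.Finite.of_injective Θ ?_
  intro s t hst
  apply Subtype.ext
  apply LinearMap.ext_on hspan
  intro v hv
  have h1 := congrArg (fun F : L →ₗ[ℤ] L => ((F ⟨v, hv⟩ : L) : V)) hst
  simpa [Θ] using h1

/-- Cusp forms of weight `k ≤ 0` on `Γ₀(N)` vanish (prelude Sturm bound). -/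
theorem cuspForm_eq_zero_of_weight_nonpos (N : ℕ) [NeZero N] {k : ℤ} (hk : k ≤ 0)
    (f : CuspForm (CongruenceSubgroup.Gamma0 N) k) : f = 0 := by
  have hg : ModularFormClass.modularForm f = 0 :=
    ModularForm.sturm_bound_Gamma0 N (ModularFormClass.modularForm f) (by
      intro n hn
      have h0 : (k * ((CongruenceSubgroup.Gamma0 N).index : ℤ)).toNat = 0 := by
        apply Int.toNat_eq_zero.mpr
        exact mul_nonpos_of_nonpos_of_nonneg hk (Int.natCast_nonneg _)
      rw [h0] at hn
      have hn0 : n = 0 := by omega
      subst hn0
      exact CuspFormClass.qExpansion_coeff_zero f one_pos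
        (CongruenceSubgroup.one_mem_strictPeriods_Gamma0 N))
  ext z
  have := DFunLike.congr_fun hg z
  simpa using this

end HeckeFinite

/-- **S22 wiring.** If the cusp forms of weight `k` on `Γ₀(N)` are spanned by forms with
integral `q`-expansion (needed only for `1 ≤ k`), then the Hecke algebra is a finite
`ℤ`-module. -/
theorem heckeAlgebra_finite_of_hasIntegralStructure (N : ℕ) [NeZero N] (k : ℤ) (S : Set ℕ)
    (h : 1 ≤ k → CuspForm.HasIntegralStructure N k) :
    Module.Finite ℤ (CuspForm.heckeAlgebra N k S) := by
  rcases le_or_gt k 0 with hk | hk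
  · -- no cusp forms: the endomorphism ring is trivial
    have hsub : Subsingleton (CuspForm (CongruenceSubgroup.Gamma0 N) k) :=
      ⟨fun a b => (HeckeFinite.cuspForm_eq_zero_of_weight_nonpos N hk a).trans
        (HeckeFinite.cuspForm_eq_zero_of_weight_nonpos N hk b).symm⟩
    have hsub' : Subsingleton (Module.End ℂ (CuspForm (CongruenceSubgroup.Gamma0 N) k)) :=
      ⟨fun a b => LinearMap.ext fun x => Subsingleton.elim _ _⟩
    have hsub'' : Subsingleton (CuspForm.heckeAlgebra N k S) :=
      ⟨fun a b => Subtype.ext (Subsingleton.elim _ _)⟩
    infer_instance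
  · have hk1 : 1 ≤ k := by omega
    exact HeckeFinite.finite_adjoin_of_stable_lattice (CuspForm.intLattice N k)
      (CuspForm.intLattice_fg N k) (h hk1) (CuspForm.heckeGenerators N k S)
      (fun T hT f hf => CuspForm.mem_intLattice_of_mem_heckeAlgebra hk1
        (Algebra.subset_adjoin hT) hf)

end Fermat.Agent.S23
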