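import Mathlib

/-!
# Ring endomorphisms of `ℂ` move every irrational number

Block L6(a) of the S23 plan: for `z : ℂ` not rational there is a ring automorphism of `ℂ`
moving `z`.

OWNER: helper76 (only the owner edits this file).
-/

set_option autoImplicit false

namespace Fermat.Agent.S23

open MvPolynomial

/-- Any ring automorphism of the polynomial ring on a transcendence basis of `ℂ` over a subfield
extends to a ring automorphism of `ℂ`. -/
theorem rhm_exists_ringEquiv_extending {k : Type*} [Field k] [Algebra k ℂ]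
    (s : Set ℂ) (hs : IsTranscendenceBasis k (Subtype.val : s → ℂ))
    (e : MvPolynomial s k ≃+* MvPolynomial s k) :
    ∃ σ : ℂ ≃+* ℂ, ∀ p : MvPolynomial s k,
      σ (aeval (Subtype.val : s → ℂ) p) = aeval (Subtype.val : s → ℂ) (e p) := by
  have := IsAlgClosed.isAlgClosure_of_transcendence_basis (Subtype.val : s → ℂ) hs
  let E := hs.1.aevalEquiv
  let e' : Algebra.adjoin k (Set.range (Subtype.val : s → ℂ)) ≃+*
      Algebra.adjoin k (Set.range (Subtype.val : s → ℂ)) :=
    E.symm.toRingEquiv.trans (e.trans E.toRingEquiv)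
  refine ⟨IsAlgClosure.equivOfEquiv ℂ ℂ e', fun p => ?_⟩
  have h1 : aeval (Subtype.val : s → ℂ) p =
      algebraMap (Algebra.adjoin k (Set.range (Subtype.val : s → ℂ))) ℂ (E p) :=
    (hs.1.algebraMap_aevalEquiv p).symm
  have h2 : aeval (Subtype.val : s → ℂ) (e p) =
      algebraMap (Algebra.adjoin k (Set.range (Subtype.val : s → ℂ))) ℂ (E (e p)) :=
    (hs.1.algebraMap_aevalEquiv (e p)).symm
  rw [h1, h2, IsAlgClosure.equivOfEquiv_algebraMap]
  congr 1
  simp [e']

/-- A transcendental complex number is moved by some ring automorphism of `ℂ`. -/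
theorem rhm_exists_ringEquiv_ne_of_transcendental {z : ℂ} (hz : Transcendental ℚ z) :
    ∃ σ : ℂ ≃+* ℂ, σ z ≠ z := by
  classical
  have hind : AlgebraicIndepOn ℚ id ({z} : Set ℂ) :=
    (algebraicIndependent_singleton_iff (⟨z, rfl⟩ : ({z} : Set ℂ))).mpr hz
  obtain ⟨t, hzt, ht⟩ := exists_isTranscendenceBasis_superset hind
  have hzmem : z ∈ t := hzt rfl
  let z0 : t := ⟨z, hzmem⟩
  let f : MvPolynomial t ℚ →ₐ[ℚ] MvPolynomial t ℚ :=
    aeval (fun i => if i = z0 then X i + 1 else X i)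
  let g : MvPolynomial t ℚ →ₐ[ℚ] MvPolynomial t ℚ :=
    aeval (fun i => if i = z0 then X i - 1 else X i)
  have hfg : f.comp g = AlgHom.id ℚ _ := by
    apply MvPolynomial.algHom_ext
    intro i
    by_cases hi : i = z0 <;> simp [f, g, hi]
  have hgf : g.comp f = AlgHom.id ℚ _ := by
    apply MvPolynomial.algHom_ext
    intro i
    by_cases hi : i = z0 <;> simp [f, g, hi]
  let e : MvPolynomial t ℚ ≃ₐ[ℚ] MvPolynomial t ℚ := AlgEquiv.ofAlgHom f g hfg hgf
  obtain ⟨σ, hσ⟩ := rhm_exists_ringEquiv_extending t ht e.toRingEquiv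
  refine ⟨σ, ?_⟩
  have h := hσ (X z0)
  have he : e.toRingEquiv (X z0) = X z0 + 1 := by
    simp [e, f]
  rw [he] at h
  simp only [aeval_X, map_add, map_one] at h
  rw [show ((z0 : t) : ℂ) = z from rfl] at h
  rw [h]
  simp

/-- An algebraic irrational complex number is moved by some ring automorphism of `ℂ`. -/
theorem rhm_exists_ringEquiv_ne_of_isAlgebraic {z : ℂ} (hz : IsAlgebraic ℚ z)
    (hq : z ∉ (algebraMap ℚ ℂ).range) :
    ∃ σ : ℂ ≃+* ℂ, σ z ≠ z := by
  classical
  let k := algebraicClosure ℚ ℂ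
  have : IsAlgClosure ℚ k := algebraicClosure.isAlgClosure ℚ ℂ
  have : Normal ℚ k := IsAlgClosure.normal ℚ k
  have : IsAlgClosed k := IsAlgClosure.isAlgClosed ℚ
  let z' : k := ⟨z, mem_algebraicClosure_iff.mpr hz⟩
  have hz' : IsAlgebraic ℚ z' := Algebra.IsAlgebraic.isAlgebraic z'
  have hdeg : 1 < (minpoly ℚ z').natDegree := by
    have hpos : 0 < (minpoly ℚ z').natDegree := minpoly.natDegree_pos hz'.isIntegral
    have hne : (minpoly ℚ z').natDegree ≠ 1 := by
      intro h1
      rw [minpoly.natDegree_eq_one_iff] at h1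
      obtain ⟨r, hr⟩ := h1
      apply hq
      refine ⟨r, ?_⟩
      have := congrArg (fun x : k => (x : ℂ)) hr
      simpa using this
    omega
  have hsep : (minpoly ℚ z').Separable := (minpoly.irreducible hz'.isIntegral).separable
  have hcard := Polynomial.card_rootSet_eq_natDegree (K := k) hsep
    (IsAlgClosed.splits _)
  have hroot : z' ∈ (minpoly ℚ z').rootSet k := by
    rw [Polynomial.mem_rootSet]
    exact ⟨minpoly.ne_zero hz'.isIntegral, minpoly.aeval ℚ z'⟩
  obtain ⟨⟨y, hy⟩, hyz⟩ := Fintype.exists_ne_of_one_lt_card (by rw [hcard]; exact hdeg)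
    (⟨z', hroot⟩ : (minpoly ℚ z').rootSet k)
  have hyz' : y ≠ z' := fun h => hyz (Subtype.ext h)
  rw [Polynomial.mem_rootSet] at hy
  obtain ⟨τ, hτ⟩ := minpoly.exists_algEquiv_of_root' (x := y) hz' hy.2
  obtain ⟨s, hs⟩ := exists_isTranscendenceBasis k ℂ
  obtain ⟨σ, hσ⟩ := rhm_exists_ringEquiv_extending s hs (MvPolynomial.mapEquiv s τ.toRingEquiv)
  refine ⟨σ, ?_⟩
  have h := hσ (C z')
  simp only [mapEquiv_apply, map_C, aeval_C] at h
  have h1 : algebraMap k ℂ z' = z := rfl
  rw [h1] at h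
  rw [h]
  intro hcontra
  apply hyz'
  apply Subtype.ext
  have : (τ z' : ℂ) = z := hcontra
  rw [hτ] at this
  exact this

/-- **Every irrational complex number is moved by a ring automorphism of `ℂ`.** -/
theorem rhm_exists_ringEquiv_ne {z : ℂ} (hq : z ∉ (algebraMap ℚ ℂ).range) :
    ∃ σ : ℂ ≃+* ℂ, σ z ≠ z := by
  by_cases hz : IsAlgebraic ℚ z
  · exact rhm_exists_ringEquiv_ne_of_isAlgebraic hz hq
  · exact rhm_exists_ringEquiv_ne_of_transcendental hz

/-- Ring-hom version: an element of `ℂ` fixed by every ring endomorphism is rational. -/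
theorem rhm_mem_range_ratCast_of_forall_ringHom_fixed {z : ℂ}
    (h : ∀ σ : ℂ →+* ℂ, σ z = z) : ∃ r : ℚ, (r : ℂ) = z := by
  by_contra hne
  have hq : z ∉ (algebraMap ℚ ℂ).range := by
    rintro ⟨r, hr⟩
    exact hne ⟨r, by simpa using hr⟩
  obtain ⟨σ, hσ⟩ := rhm_exists_ringEquiv_ne hq
  exact hσ (h σ.toRingHom)

/-- Same statement with `Set.range ((↑) : ℚ → ℂ)` (the shape used in `Descent.lean`). -/
theorem rhm_exists_ringHom_ne_of_notMem_range_ratCast (z : ℂ) (hz : z ∉ Set.range ((↑) : ℚ → ℂ)) :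
    ∃ σ : ℂ →+* ℂ, σ z ≠ z := by
  have hq : z ∉ (algebraMap ℚ ℂ).range := by
    rintro ⟨r, hr⟩
    exact hz ⟨r, by simpa using hr⟩
  obtain ⟨σ, hσ⟩ := rhm_exists_ringEquiv_ne hq
  exact ⟨σ.toRingHom, hσ⟩

end Fermat.Agent.S23
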